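/-
PROJECT H (S17), scratch slice (helper4): the abstract core of H0.14 + H0.15.

`X` is any type (the places of the curve), `b : X → X → ℝ` a symmetric pairing on points
(the regularised chord height), `Bil b` its bilinear extension to divisors `X →₀ ℤ`,
`Qf b D = (1/2) Bil b D D` the EXACT quadratic form (parallelogram law for free).

If a subgroup `PP` of divisors (the Galois-stable packets) and a set `ZZ ⊆ PP` of divisors of
bounded size (the zero divisors of rational forms of bounded degree) satisfy the reciprocity bound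
`|Bil b D Z| ≤ C * nrm1 D` (H0.13), then `Qf` is invariant up to `2 C nrm1 D + 2 C n` under
`D ↦ D + Z - Z'` (class invariance, H0.14), and for any map `ρ : J → X →₀ ℤ` from a commutative
group which is additive up to such corrections, `q = Qf b ∘ ρ` satisfies the approximate
parallelogram law, literally hypothesis `H₃` of Mathlib's `AddCommGroup.fg_of_descent'`.

Mathlib only.
-/
import Mathlib

set_option autoImplicit false

namespace Fermat.Agent.S17.Abs.PairQuad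

open Finsupp

variable {X : Type*}

/-- the linear form `E ↦ ∑_R E(R) b(P,R)` -/
noncomputable def innerHom (b : X → X → ℝ) (P : X) : (X →₀ ℤ) →+ ℝ :=
  Finsupp.liftAddHom fun R => zmultiplesHom ℝ (b P R)

/-- the bilinear extension of `b` to divisors, as a bi-additive map -/
noncomputable def BilHom (b : X → X → ℝ) : (X →₀ ℤ) →+ (X →₀ ℤ) →+ ℝ :=
  Finsupp.liftAddHom fun P => zmultiplesHom ((X →₀ ℤ) →+ ℝ) (innerHom b P)

/-- the bilinear extension of `b` to divisors: `Bil b D E = ∑_P ∑_R D(P) E(R) b(P,R)` -/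
noncomputable def Bil (b : X → X → ℝ) (D E : X →₀ ℤ) : ℝ := BilHom b D E

/-- the quadratic form `(1/2) ⟨D, D⟩` -/
noncomputable def Qf (b : X → X → ℝ) (D : X →₀ ℤ) : ℝ := (1 / 2) * Bil b D D

/-- the `ℓ¹`-norm of a divisor -/
noncomputable def nrm1 (D : X →₀ ℤ) : ℝ := ∑ P ∈ D.support, |((D P : ℤ) : ℝ)|

variable (b : X → X → ℝ)

@[simp]
theorem innerHom_single (P R : X) (n : ℤ) : innerHom b P (single R n) = (n : ℝ) * b P R := by
  simp [innerHom]

@[simp]
theorem Bil_single_single (P R : X) (m n : ℤ) :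
    Bil b (single P m) (single R n) = (m : ℝ) * (n : ℝ) * b P R := by
  simp [Bil, BilHom, mul_assoc]

theorem Bil_add_left (D D' E : X →₀ ℤ) : Bil b (D + D') E = Bil b D E + Bil b D' E := by
  simp [Bil]

theorem Bil_add_right (D E E' : X →₀ ℤ) : Bil b D (E + E') = Bil b D E + Bil b D E' := by
  simp [Bil]

@[simp]
theorem Bil_zero_left (E : X →₀ ℤ) : Bil b 0 E = 0 := by simp [Bil]

@[simp]
theorem Bil_zero_right (D : X →₀ ℤ) : Bil b D 0 = 0 := by simp [Bil]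

theorem Bil_neg_left (D E : X →₀ ℤ) : Bil b (-D) E = -Bil b D E := by simp [Bil]

theorem Bil_neg_right (D E : X →₀ ℤ) : Bil b D (-E) = -Bil b D E := by simp [Bil]

theorem Bil_sub_left (D D' E : X →₀ ℤ) : Bil b (D - D') E = Bil b D E - Bil b D' E := by
  simp [Bil]

theorem Bil_sub_right (D E E' : X →₀ ℤ) : Bil b D (E - E') = Bil b D E - Bil b D E' := by
  simp [Bil]

/-- the explicit double sum -/
theorem Bil_eq_sum (D E : X →₀ ℤ) :
    Bil b D E = ∑ P ∈ D.support, ∑ R ∈ E.support, ((D P : ℤ) : ℝ) * ((E R : ℤ) : ℝ) * b P R := by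
  induction D using Finsupp.induction_linear with
  | zero => simp
  | add D D' hD hD' =>
    rw [Bil_add_left, hD, hD']
    have key : ∀ D₀ : X →₀ ℤ, ∀ S : Finset X, D₀.support ⊆ S →
        ∑ P ∈ D₀.support, ∑ R ∈ E.support, ((D₀ P : ℤ) : ℝ) * ((E R : ℤ) : ℝ) * b P R
          = ∑ P ∈ S, ∑ R ∈ E.support, ((D₀ P : ℤ) : ℝ) * ((E R : ℤ) : ℝ) * b P R := by
      intro D₀ S hS
      refine Finset.sum_subset hS fun P _ hP => ?_
      rw [Finsupp.notMem_support_iff.mp hP]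
      simp
    classical
    rw [key D (D.support ∪ D'.support) Finset.subset_union_left,
      key D' (D.support ∪ D'.support) Finset.subset_union_right,
      key (D + D') (D.support ∪ D'.support) Finsupp.support_add, ← Finset.sum_add_distrib]
    refine Finset.sum_congr rfl fun P _ => ?_
    rw [← Finset.sum_add_distrib]
    refine Finset.sum_congr rfl fun R _ => ?_
    rw [Finsupp.add_apply]
    push_cast
    ring
  | single P m =>
    induction E using Finsupp.induction_linear with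
    | zero => simp
    | add E E' hE hE' =>
      rw [Bil_add_right, hE, hE']
      have key : ∀ E₀ : X →₀ ℤ, ∀ S : Finset X, E₀.support ⊆ S →
          ∑ P' ∈ (single P m).support, ∑ R ∈ E₀.support,
              (((single P m) P' : ℤ) : ℝ) * ((E₀ R : ℤ) : ℝ) * b P' R
            = ∑ P' ∈ (single P m).support, ∑ R ∈ S,
              (((single P m) P' : ℤ) : ℝ) * ((E₀ R : ℤ) : ℝ) * b P' R := by
        intro E₀ S hS
        refine Finset.sum_congr rfl fun P' _ => ?_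
        refine Finset.sum_subset hS fun R _ hR => ?_
        rw [Finsupp.notMem_support_iff.mp hR]
        simp
      classical
      rw [key E (E.support ∪ E'.support) Finset.subset_union_left,
        key E' (E.support ∪ E'.support) Finset.subset_union_right,
        key (E + E') (E.support ∪ E'.support) Finsupp.support_add, ← Finset.sum_add_distrib]
      refine Finset.sum_congr rfl fun P' _ => ?_
      rw [← Finset.sum_add_distrib]
      refine Finset.sum_congr rfl fun R _ => ?_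
      rw [Finsupp.add_apply]
      push_cast
      ring
    | single R n =>
      rw [Bil_single_single]
      by_cases hm : m = 0
      · subst hm; simp
      by_cases hn : n = 0
      · subst hn; simp
      rw [Finsupp.support_single _ hm, Finsupp.support_single _ hn]
      simp

variable {b}

theorem Bil_symm (hb : ∀ P R, b P R = b R P) (D E : X →₀ ℤ) : Bil b D E = Bil b E D := by
  induction D using Finsupp.induction_linear with
  | zero => simp
  | add D D' hD hD' => rw [Bil_add_left, Bil_add_right, hD, hD']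
  | single P m =>
    induction E using Finsupp.induction_linear with
    | zero => simp
    | add E E' hE hE' => rw [Bil_add_left, Bil_add_right, hE, hE']
    | single R n => rw [Bil_single_single, Bil_single_single, hb P R]; ring

theorem Qf_add (hb : ∀ P R, b P R = b R P) (D E : X →₀ ℤ) :
    Qf b (D + E) = Qf b D + Bil b D E + Qf b E := by
  unfold Qf
  rw [Bil_add_left, Bil_add_right, Bil_add_right, Bil_symm hb E D]
  ring

theorem Qf_neg (D : X →₀ ℤ) : Qf b (-D) = Qf b D := by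
  unfold Qf
  rw [Bil_neg_left, Bil_neg_right, neg_neg]

theorem Qf_sub (hb : ∀ P R, b P R = b R P) (D E : X →₀ ℤ) :
    Qf b (D - E) = Qf b D - Bil b D E + Qf b E := by
  rw [sub_eq_add_neg, Qf_add hb, Bil_neg_right, Qf_neg]
  ring

/-- the EXACT parallelogram law on the free group of divisors -/
theorem Qf_parallelogram (hb : ∀ P R, b P R = b R P) (D E : X →₀ ℤ) :
    Qf b (D + E) + Qf b (D - E) = 2 * Qf b D + 2 * Qf b E := by
  rw [Qf_add hb, Qf_sub hb]
  ring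

theorem Qf_two_nsmul (hb : ∀ P R, b P R = b R P) (D : X →₀ ℤ) : Qf b (D + D) = 4 * Qf b D := by
  rw [Qf_add hb]
  unfold Qf
  ring

/-! ### the `ℓ¹`-norm -/

theorem nrm1_nonneg (D : X →₀ ℤ) : 0 ≤ nrm1 D :=
  Finset.sum_nonneg fun _ _ => abs_nonneg _

theorem nrm1_eq_sum_of_subset (D : X →₀ ℤ) {S : Finset X} (hS : D.support ⊆ S) :
    nrm1 D = ∑ P ∈ S, |((D P : ℤ) : ℝ)| := by
  refine Finset.sum_subset hS fun P _ hP => ?_
  rw [Finsupp.notMem_support_iff.mp hP]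
  simp

theorem nrm1_add_le (D E : X →₀ ℤ) : nrm1 (D + E) ≤ nrm1 D + nrm1 E := by
  classical
  rw [nrm1_eq_sum_of_subset D (S := D.support ∪ E.support) Finset.subset_union_left,
    nrm1_eq_sum_of_subset E (S := D.support ∪ E.support) Finset.subset_union_right,
    nrm1_eq_sum_of_subset (D + E) (S := D.support ∪ E.support) Finsupp.support_add,
    ← Finset.sum_add_distrib]
  refine Finset.sum_le_sum fun P _ => ?_
  rw [Finsupp.add_apply]
  push_cast
  exact abs_add_le _ _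

@[simp]
theorem nrm1_neg (D : X →₀ ℤ) : nrm1 (-D) = nrm1 D := by
  unfold nrm1
  rw [Finsupp.support_neg]
  refine Finset.sum_congr rfl fun P _ => ?_
  rw [Finsupp.neg_apply]
  push_cast
  exact abs_neg _

theorem nrm1_sub_le (D E : X →₀ ℤ) : nrm1 (D - E) ≤ nrm1 D + nrm1 E := by
  rw [sub_eq_add_neg]
  exact (nrm1_add_le D (-E)).trans_eq (by rw [nrm1_neg])

@[simp]
theorem nrm1_zero : nrm1 (0 : X →₀ ℤ) = 0 := by simp [nrm1]

theorem nrm1_single (P : X) (m : ℤ) : nrm1 (single P m) = |(m : ℝ)| := by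
  by_cases hm : m = 0
  · subst hm; simp
  · simp [nrm1, Finsupp.support_single _ hm]

theorem Bil_single_left (b : X → X → ℝ) (P : X) (m : ℤ) (Z : X →₀ ℤ) :
    Bil b (single P m) Z = (m : ℝ) * Bil b (single P 1) Z := by
  induction Z using Finsupp.induction_linear with
  | zero => simp
  | add E E' hE hE' => rw [Bil_add_right, Bil_add_right, hE, hE']; ring
  | single R n => rw [Bil_single_single, Bil_single_single]; push_cast; ring

theorem Bil_eq_sum_single (b : X → X → ℝ) (D Z : X →₀ ℤ) :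
    Bil b D Z = ∑ P ∈ D.support, ((D P : ℤ) : ℝ) * Bil b (single P 1) Z := by
  induction D using Finsupp.induction_linear with
  | zero => simp
  | add D D' hD hD' =>
    classical
    have key : ∀ D₀ : X →₀ ℤ, ∀ S : Finset X, D₀.support ⊆ S →
        ∑ P ∈ D₀.support, ((D₀ P : ℤ) : ℝ) * Bil b (single P 1) Z
          = ∑ P ∈ S, ((D₀ P : ℤ) : ℝ) * Bil b (single P 1) Z := by
      intro D₀ S hS
      refine Finset.sum_subset hS fun P _ hP => ?_
      rw [Finsupp.notMem_support_iff.mp hP]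
      simp
    rw [Bil_add_left, hD, hD', key D (D.support ∪ D'.support) Finset.subset_union_left,
      key D' (D.support ∪ D'.support) Finset.subset_union_right,
      key (D + D') (D.support ∪ D'.support) Finsupp.support_add, ← Finset.sum_add_distrib]
    refine Finset.sum_congr rfl fun P _ => ?_
    rw [Finsupp.add_apply]
    push_cast
    ring
  | single P m =>
    by_cases hm : m = 0
    · subst hm; simp
    rw [Finsupp.support_single _ hm, Finset.sum_singleton, Finsupp.single_eq_same,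
      Bil_single_left b P m]

/-- a pointwise bound on the pairing against a fixed divisor gives the `ℓ¹` bound -/
theorem abs_Bil_le_of_forall_single (b : X → X → ℝ) (Z : X →₀ ℤ) {C : ℝ}
    (h : ∀ P : X, |Bil b (single P 1) Z| ≤ C) (D : X →₀ ℤ) : |Bil b D Z| ≤ C * nrm1 D := by
  rw [Bil_eq_sum_single b D Z, nrm1, Finset.mul_sum]
  refine (Finset.abs_sum_le_sum_abs _ _).trans (Finset.sum_le_sum fun P _ => ?_)
  rw [abs_mul, mul_comm]
  exact mul_le_mul_of_nonneg_right (h P) (abs_nonneg _)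

/-- bridge from the literal shape of B.4 (`⟨D, Z⟩ = deg(D) κ(Z) + Θ`, `|Θ| ≤ γ |D|₁`) to the
reciprocity hypothesis `hR` of the packet forms: on DEGREE-ZERO divisors the main terms cancel -/
theorem abs_Bil_sub_le_of_B4 (b : X → X → ℝ) (deg : (X →₀ ℤ) →+ ℤ) (κ : (X →₀ ℤ) → ℝ) {γ : ℝ}
    {D Z Z' : X →₀ ℤ} (hdeg : deg D = 0)
    (hZ : |Bil b D Z - ((deg D : ℤ) : ℝ) * κ Z| ≤ γ * nrm1 D)
    (hZ' : |Bil b D Z' - ((deg D : ℤ) : ℝ) * κ Z'| ≤ γ * nrm1 D) :
    |Bil b D (Z - Z')| ≤ 2 * γ * nrm1 D := by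
  rw [hdeg] at hZ hZ'
  simp only [Int.cast_zero, zero_mul, sub_zero] at hZ hZ'
  rw [Bil_sub_right]
  rw [abs_le] at hZ hZ' ⊢
  constructor <;> linarith [hZ.1, hZ.2, hZ'.1, hZ'.2]

/-- the reciprocity hypothesis `hR` of `class_invariance'` / `approx_parallelogram'` for
`PP₀ := PP ⊓ ker deg` and `EE := {Z - Z' | Z, Z' ∈ ZZ}`, from the literal shape of B.4 on `PP` -/
theorem hR_of_B4 (b : X → X → ℝ) (PP : AddSubgroup (X →₀ ℤ)) (ZZ : Set (X →₀ ℤ))
    (deg : (X →₀ ℤ) →+ ℤ) (κ : (X →₀ ℤ) → ℝ) {γ : ℝ}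
    (hB4 : ∀ D ∈ PP, ∀ Z ∈ ZZ, |Bil b D Z - ((deg D : ℤ) : ℝ) * κ Z| ≤ γ * nrm1 D) :
    ∀ D ∈ PP ⊓ deg.ker, ∀ E ∈ {W : X →₀ ℤ | ∃ Z ∈ ZZ, ∃ Z' ∈ ZZ, W = Z - Z'},
      |Bil b D E| ≤ 2 * γ * nrm1 D := by
  rintro D ⟨hD, hD0⟩ E ⟨Z, hZ, Z', hZ', rfl⟩
  exact abs_Bil_sub_le_of_B4 b deg κ (AddMonoidHom.mem_ker.mp hD0) (hB4 D hD Z hZ)
    (hB4 D hD Z' hZ')

/-! ### class invariance (H0.14) -/

section Invariance

variable (PP : AddSubgroup (X →₀ ℤ)) (ZZ : Set (X →₀ ℤ))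

/-- **Class invariance.** If every `Z ∈ ZZ ⊆ PP` has size `≤ n` and pairs with every `D ∈ PP` with
`|⟨D, Z⟩| ≤ C |D|₁`, then `Qf (D + Z - Z') = Qf D + O(|D|₁ + n)`. -/
theorem class_invariance (hb : ∀ P R, b P R = b R P) (hZP : ∀ Z ∈ ZZ, Z ∈ PP) {n C : ℝ}
    (hn : ∀ Z ∈ ZZ, nrm1 Z ≤ n) (hC : 0 ≤ C)
    (hR : ∀ D ∈ PP, ∀ Z ∈ ZZ, |Bil b D Z| ≤ C * nrm1 D)
    {D : X →₀ ℤ} (hD : D ∈ PP) {Z Z' : X →₀ ℤ} (hZ : Z ∈ ZZ) (hZ' : Z' ∈ ZZ) :
    |Qf b (D + Z - Z') - Qf b D| ≤ 2 * C * nrm1 D + 2 * C * n := by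
  have e : Qf b (D + Z - Z') - Qf b D
      = Bil b D Z - Bil b D Z'
        + ((1 / 2) * Bil b Z Z - Bil b Z Z' + (1 / 2) * Bil b Z' Z') := by
    rw [add_sub_assoc, Qf_add hb, Qf_sub hb, Bil_sub_right]
    unfold Qf
    ring
  have h1 := hR D hD Z hZ
  have h2 := hR D hD Z' hZ'
  have bound : ∀ Z₁ ∈ ZZ, ∀ Z₂ ∈ ZZ, |Bil b Z₁ Z₂| ≤ C * n := fun Z₁ hZ₁ Z₂ hZ₂ =>
    (hR Z₁ (hZP Z₁ hZ₁) Z₂ hZ₂).trans (mul_le_mul_of_nonneg_left (hn Z₁ hZ₁) hC)
  have h3 := bound Z hZ Z hZ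
  have h4 := bound Z hZ Z' hZ'
  have h5 := bound Z' hZ' Z' hZ'
  rw [e]
  rw [abs_le] at h1 h2 h3 h4 h5 ⊢
  constructor <;> linarith [h1.1, h1.2, h2.1, h2.2, h3.1, h3.2, h4.1, h4.2, h5.1, h5.2]

/-- **Class invariance, packet form** (helper7 #3369 (3)): `EE ⊆ PP` a family of principal-type
divisors `E = Z(a) - Z(b)` of size `≤ n` with `|⟨D, E⟩| ≤ C |D|₁` for every `D ∈ PP`; then
`Qf (D + E) = Qf D + O(|D|₁ + n)`. -/
theorem class_invariance' (EE : Set (X →₀ ℤ)) (hb : ∀ P R, b P R = b R P)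
    (hEP : ∀ E ∈ EE, E ∈ PP) {n C : ℝ} (hn : ∀ E ∈ EE, nrm1 E ≤ n) (hC : 0 ≤ C)
    (hR : ∀ D ∈ PP, ∀ E ∈ EE, |Bil b D E| ≤ C * nrm1 D)
    {D : X →₀ ℤ} (hD : D ∈ PP) {E : X →₀ ℤ} (hE : E ∈ EE) :
    |Qf b (D + E) - Qf b D| ≤ C * nrm1 D + (1 / 2) * C * n := by
  have e : Qf b (D + E) - Qf b D = Bil b D E + (1 / 2) * Bil b E E := by
    rw [Qf_add hb]
    unfold Qf
    ring
  have h1 := hR D hD E hE
  have h2 : |Bil b E E| ≤ C * n :=
    (hR E (hEP E hE) E hE).trans (mul_le_mul_of_nonneg_left (hn E hE) hC)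
  rw [e]
  rw [abs_le] at h1 h2 ⊢
  constructor <;> linarith [h1.1, h1.2, h2.1, h2.2]

end Invariance

/-! ### the approximate parallelogram law on a group (H0.15) -/

section Group

variable {J : Type*} [AddCommGroup J]

/-- **From invariance to the parallelogram law**, in the general form: `ρ` is additive up to
corrections `W` in a set `WW` under which `Qf` moves by at most `c₁ |D|₁ + c₂` on `PP`. -/
theorem approx_parallelogram_of_invariance (hb : ∀ P R, b P R = b R P)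
    (PP : AddSubgroup (X →₀ ℤ)) (WW : Set (X →₀ ℤ)) {c₁ c₂ s : ℝ} (hc₁ : 0 ≤ c₁)
    (hW : ∀ D ∈ PP, ∀ W ∈ WW, |Qf b (D + W) - Qf b D| ≤ c₁ * nrm1 D + c₂)
    (ρ : J → X →₀ ℤ) (hρ : ∀ x, ρ x ∈ PP) (hs : ∀ x, nrm1 (ρ x) ≤ s)
    (hadd : ∀ x y, ∃ W ∈ WW, ρ (x + y) = ρ x + ρ y + W)
    (hsub : ∀ x y, ∃ W ∈ WW, ρ (x - y) = ρ x - ρ y + W) (x y : J) :
    |Qf b (ρ (x + y)) + Qf b (ρ (x - y)) - 2 * (Qf b (ρ x) + Qf b (ρ y))|
      ≤ 4 * c₁ * s + 2 * c₂ := by
  obtain ⟨W, hWW, e⟩ := hadd x y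
  obtain ⟨W', hWW', e'⟩ := hsub x y
  have h1 := hW (ρ x + ρ y) (PP.add_mem (hρ x) (hρ y)) W hWW
  have h2 := hW (ρ x - ρ y) (PP.sub_mem (hρ x) (hρ y)) W' hWW'
  have n1 : nrm1 (ρ x + ρ y) ≤ 2 * s :=
    (nrm1_add_le _ _).trans (by linarith [hs x, hs y])
  have n2 : nrm1 (ρ x - ρ y) ≤ 2 * s :=
    (nrm1_sub_le _ _).trans (by linarith [hs x, hs y])
  have m1 : c₁ * nrm1 (ρ x + ρ y) ≤ c₁ * (2 * s) := mul_le_mul_of_nonneg_left n1 hc₁
  have m2 : c₁ * nrm1 (ρ x - ρ y) ≤ c₁ * (2 * s) := mul_le_mul_of_nonneg_left n2 hc₁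
  have par := Qf_parallelogram hb (ρ x) (ρ y)
  rw [e, e']
  rw [abs_le] at h1 h2 ⊢
  constructor <;> linarith [h1.1, h1.2, h2.1, h2.2]

/-- **The approximate parallelogram law** for `q = Qf b ∘ ρ` — literally hypothesis `H₃` of
Mathlib's `AddCommGroup.fg_of_descent'` — from the reciprocity bound `hR` (H0.13). -/
theorem approx_parallelogram (hb : ∀ P R, b P R = b R P)
    (PP : AddSubgroup (X →₀ ℤ)) (ZZ : Set (X →₀ ℤ)) (hZP : ∀ Z ∈ ZZ, Z ∈ PP) {n C s : ℝ}
    (hn : ∀ Z ∈ ZZ, nrm1 Z ≤ n) (hC : 0 ≤ C)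
    (hR : ∀ D ∈ PP, ∀ Z ∈ ZZ, |Bil b D Z| ≤ C * nrm1 D)
    (ρ : J → X →₀ ℤ) (hρ : ∀ x, ρ x ∈ PP) (hs : ∀ x, nrm1 (ρ x) ≤ s)
    (hadd : ∀ x y, ∃ Z ∈ ZZ, ∃ Z' ∈ ZZ, ρ (x + y) = ρ x + ρ y + Z - Z')
    (hsub : ∀ x y, ∃ Z ∈ ZZ, ∃ Z' ∈ ZZ, ρ (x - y) = ρ x - ρ y + Z - Z') (x y : J) :
    |Qf b (ρ (x + y)) + Qf b (ρ (x - y)) - 2 * (Qf b (ρ x) + Qf b (ρ y))|
      ≤ 8 * C * s + 4 * C * n := by
  have key := approx_parallelogram_of_invariance (J := J) hb PP
    {W | ∃ Z ∈ ZZ, ∃ Z' ∈ ZZ, W = Z - Z'} (c₁ := 2 * C) (c₂ := 2 * C * n) (s := s)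
    (by positivity)
    (by
      rintro D hD W ⟨Z, hZ, Z', hZ', rfl⟩
      have := class_invariance PP ZZ hb hZP hn hC hR hD hZ hZ'
      rwa [add_sub_assoc] at this)
    ρ hρ hs
    (fun x y => by
      obtain ⟨Z, hZ, Z', hZ', e⟩ := hadd x y
      exact ⟨Z - Z', ⟨Z, hZ, Z', hZ', rfl⟩, by rw [e, add_sub_assoc]⟩)
    (fun x y => by
      obtain ⟨Z, hZ, Z', hZ', e⟩ := hsub x y
      exact ⟨Z - Z', ⟨Z, hZ, Z', hZ', rfl⟩, by rw [e, add_sub_assoc]⟩)
    x y
  refine key.trans (le_of_eq ?_)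
  ring

/-- **The approximate parallelogram law, packet form**: `ρ` additive up to corrections in a family
`EE ⊆ PP` of principal-type divisors satisfying the reciprocity bound. -/
theorem approx_parallelogram' (hb : ∀ P R, b P R = b R P)
    (PP : AddSubgroup (X →₀ ℤ)) (EE : Set (X →₀ ℤ)) (hEP : ∀ E ∈ EE, E ∈ PP) {n C s : ℝ}
    (hn : ∀ E ∈ EE, nrm1 E ≤ n) (hC : 0 ≤ C)
    (hR : ∀ D ∈ PP, ∀ E ∈ EE, |Bil b D E| ≤ C * nrm1 D)
    (ρ : J → X →₀ ℤ) (hρ : ∀ x, ρ x ∈ PP) (hs : ∀ x, nrm1 (ρ x) ≤ s)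
    (hadd : ∀ x y, ∃ E ∈ EE, ρ (x + y) = ρ x + ρ y + E)
    (hsub : ∀ x y, ∃ E ∈ EE, ρ (x - y) = ρ x - ρ y + E) (x y : J) :
    |Qf b (ρ (x + y)) + Qf b (ρ (x - y)) - 2 * (Qf b (ρ x) + Qf b (ρ y))|
      ≤ 4 * C * s + C * n := by
  have key := approx_parallelogram_of_invariance (J := J) hb PP EE (c₁ := C)
    (c₂ := (1 / 2) * C * n) (s := s) hC
    (fun D hD E hE => class_invariance' PP EE hb hEP hn hC hR hD hE) ρ hρ hs hadd hsub x y
  refine key.trans (le_of_eq ?_)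
  ring

end Group

end Fermat.Agent.S17.Abs.PairQuad
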