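import Mathlib
import Fermat.Agent.S17.Abs.PairQuad

/-!
# PROJECT H (S17), Part B, P1: the degree-zero lemma by doubling (B.13-prime, abstract)

`Bil b` the bilinear extension of a pairing on points to divisors `X →₀ ℤ` (`Abs/PairQuad.lean`),
`PP` the packets, `EE` a set of principal-type corrections with the reciprocity bound
`|⟨D, E⟩| ≤ C |D|₁` (`D ∈ PP`, `E ∈ EE`), `ρ : J → X →₀ ℤ` additive under doubling up to `EE`.

* LEMMA D: `|⟨D, ρ (2^k y)⟩ - 2^k ⟨D, ρ y⟩| ≤ (2^k - 1) C |D|₁`.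
* B.13-prime: a bound `|⟨D, ρ y⟩| ≤ A N(D) + C₀(y)` for every `y` self-improves to
  `|⟨D, ρ y⟩| ≤ ε N(D) + C₁(y, ε)` for every `ε > 0`.

Mathlib + landed `Abs/PairQuad` only.
-/

set_option autoImplicit false

namespace Fermat.Agent.S17.Abs.DegZero

open Fermat.Agent.S17.Abs.PairQuad

variable {X J : Type*} [AddCommGroup J] {b : X → X → ℝ}

/-- **LEMMA D (doubling).** -/
theorem abs_Bil_two_pow_sub_le (PP : AddSubgroup (X →₀ ℤ)) (EE : Set (X →₀ ℤ)) {C : ℝ}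
    (hR : ∀ D ∈ PP, ∀ E ∈ EE, |Bil b D E| ≤ C * nrm1 D) (ρ : J → X →₀ ℤ)
    (hdbl : ∀ z : J, ∃ E ∈ EE, ρ (z + z) = ρ z + ρ z + E) {D : X →₀ ℤ} (hD : D ∈ PP) (y : J)
    (k : ℕ) :
    |Bil b D (ρ (2 ^ k • y)) - 2 ^ k * Bil b D (ρ y)| ≤ (2 ^ k - 1) * (C * nrm1 D) := by
  induction k with
  | zero => simp
  | succ k ih =>
    obtain ⟨E, hE, e⟩ := hdbl (2 ^ k • y)
    have h2 : (2 : ℕ) ^ (k + 1) • y = 2 ^ k • y + 2 ^ k • y := by
      rw [pow_succ, mul_smul, two_smul, smul_add]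
    have hE' := hR D hD E hE
    rw [h2, e, Bil_add_right, Bil_add_right]
    have e2 : Bil b D (ρ (2 ^ k • y)) + Bil b D (ρ (2 ^ k • y)) + Bil b D E
          - 2 ^ (k + 1) * Bil b D (ρ y)
        = 2 * (Bil b D (ρ (2 ^ k • y)) - 2 ^ k * Bil b D (ρ y)) + Bil b D E := by
      rw [pow_succ]; ring
    rw [e2]
    have e3 : ((2 : ℝ) ^ (k + 1) - 1) * (C * nrm1 D)
        = 2 * ((2 ^ k - 1) * (C * nrm1 D)) + C * nrm1 D := by
      rw [pow_succ]; ring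
    rw [e3]
    rw [abs_le] at ih hE' ⊢
    constructor <;> linarith [ih.1, ih.2, hE'.1, hE'.2]

set_option linter.unusedVariables false in
/-- **B.13-prime (degree-zero lemma by doubling).** (`hA` is not needed; it is kept so that the
statement is literally the announced one.) -/
theorem degZero (PP : AddSubgroup (X →₀ ℤ)) (EE : Set (X →₀ ℤ)) {C : ℝ}
    (hR : ∀ D ∈ PP, ∀ E ∈ EE, |Bil b D E| ≤ C * nrm1 D) (ρ : J → X →₀ ℤ)
    (hdbl : ∀ z : J, ∃ E ∈ EE, ρ (z + z) = ρ z + ρ z + E) (hC : 0 ≤ C)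
    (SS : Set (X →₀ ℤ)) (hSS : ∀ D ∈ SS, D ∈ PP) {s A : ℝ} (hs : ∀ D ∈ SS, nrm1 D ≤ s)
    (hA : 0 ≤ A) (Nn : (X →₀ ℤ) → ℝ) (hN : ∀ D ∈ SS, 0 ≤ Nn D)
    (hT : ∀ y : J, ∃ C0, ∀ D ∈ SS, |Bil b D (ρ y)| ≤ A * Nn D + C0) (y : J) {ε : ℝ}
    (hε : 0 < ε) : ∃ C1, ∀ D ∈ SS, |Bil b D (ρ y)| ≤ ε * Nn D + C1 := by
  obtain ⟨k, hk⟩ : ∃ k : ℕ, A / ε < 2 ^ k := pow_unbounded_of_one_lt (A / ε) one_lt_two
  have hpow : (0 : ℝ) < 2 ^ k := by positivity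
  have hAk : A / 2 ^ k ≤ ε := by
    rw [div_lt_iff₀ hε] at hk
    rw [div_le_iff₀ hpow]
    linarith
  obtain ⟨C0, hC0⟩ := hT (2 ^ k • y)
  refine ⟨C0 / 2 ^ k + C * s, fun D hDS => ?_⟩
  have hD := hSS D hDS
  have h1 := abs_Bil_two_pow_sub_le PP EE hR ρ hdbl hD y k
  have h2 := hC0 D hDS
  have hn0 := nrm1_nonneg D
  have hns := hs D hDS
  have hNn := hN D hDS
  -- `2^k |B(D, ρ y)| ≤ A N + C0 + (2^k - 1) C |D|`
  have h3 : 2 ^ k * |Bil b D (ρ y)| ≤ A * Nn D + C0 + (2 ^ k - 1) * (C * nrm1 D) := by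
    have : 2 ^ k * |Bil b D (ρ y)| = |2 ^ k * Bil b D (ρ y)| := by
      rw [abs_mul, abs_of_pos hpow]
    rw [this]
    rw [abs_le] at h1 h2 ⊢
    constructor <;> linarith [h1.1, h1.2, h2.1, h2.2]
  have hCn : C * nrm1 D ≤ C * s := mul_le_mul_of_nonneg_left hns hC
  have hCn0 : 0 ≤ C * nrm1 D := mul_nonneg hC hn0
  have h4 : (2 ^ k - 1) * (C * nrm1 D) ≤ 2 ^ k * (C * s) := by
    have : (2 ^ k - 1) * (C * nrm1 D) ≤ 2 ^ k * (C * nrm1 D) := by nlinarith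
    exact this.trans (mul_le_mul_of_nonneg_left hCn hpow.le)
  have h5 : |Bil b D (ρ y)| ≤ (A * Nn D + C0 + 2 ^ k * (C * s)) / 2 ^ k := by
    rw [le_div_iff₀ hpow]
    linarith
  refine h5.trans ?_
  have h6 : (A * Nn D + C0 + 2 ^ k * (C * s)) / 2 ^ k
      = A / 2 ^ k * Nn D + (C0 / 2 ^ k + C * s) := by
    field_simp
    ring
  rw [h6]
  have h7 : A / 2 ^ k * Nn D ≤ ε * Nn D := mul_le_mul_of_nonneg_right hAk hNn
  linarith

end Fermat.Agent.S17.Abs.DegZero
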