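import Mathlib
import Fermat.Agent.S17.Abs.PairQuad

/-!
# PROJECT H (S17), Part B, P1: LEMMA T (i), the trivial upper bound for effective divisors

If `b P R ≤ c + (h P + h R) / δ` on `supp D × supp W` for effective divisors `D`, `W`, then
`⟨D, W⟩ ≤ deg D · deg W · c + (deg W · h(D) + deg D · h(W)) / δ`.

Mathlib + landed `Abs/PairQuad` only.
-/

set_option autoImplicit false

namespace Fermat.Agent.S17.Abs.Trivial

open Fermat.Agent.S17.Abs.PairQuad

variable {X : Type*} {b : X → X → ℝ}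

set_option linter.unusedVariables false in
/-- **LEMMA T (i).** (`hdl` is not needed; it is kept so that the statement is literally the
announced one.) -/
theorem Bil_le_of_nonneg (hP : X → ℝ) {c dl : ℝ} (hdl : 0 < dl) (D W : X →₀ ℤ) (hD : 0 ≤ D)
    (hW : 0 ≤ W)
    (hb : ∀ P ∈ D.support, ∀ R ∈ W.support, b P R ≤ c + (hP P + hP R) / dl) :
    Bil b D W ≤ (∑ P ∈ D.support, (D P : ℝ)) * (∑ R ∈ W.support, (W R : ℝ)) * c
      + ((∑ R ∈ W.support, (W R : ℝ)) * (∑ P ∈ D.support, (D P : ℝ) * hP P)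
        + (∑ P ∈ D.support, (D P : ℝ)) * (∑ R ∈ W.support, (W R : ℝ) * hP R)) / dl := by
  have hD0 : ∀ P, (0 : ℝ) ≤ (D P : ℝ) := fun P => by exact_mod_cast (Finsupp.le_def.mp hD) P
  have hW0 : ∀ R, (0 : ℝ) ≤ (W R : ℝ) := fun R => by exact_mod_cast (Finsupp.le_def.mp hW) R
  rw [Bil_eq_sum]
  have h1 : ∑ P ∈ D.support, ∑ R ∈ W.support, ((D P : ℤ) : ℝ) * ((W R : ℤ) : ℝ) * b P R
      ≤ ∑ P ∈ D.support, ∑ R ∈ W.support,
          ((D P : ℤ) : ℝ) * ((W R : ℤ) : ℝ) * (c + (hP P + hP R) / dl) :=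
    Finset.sum_le_sum fun P hPm => Finset.sum_le_sum fun R hRm =>
      mul_le_mul_of_nonneg_left (hb P hPm R hRm) (mul_nonneg (hD0 P) (hW0 R))
  refine h1.trans (le_of_eq ?_)
  have e1 : ∀ P ∈ D.support, ∑ R ∈ W.support,
        ((D P : ℤ) : ℝ) * ((W R : ℤ) : ℝ) * (c + (hP P + hP R) / dl)
      = (D P : ℝ) * (∑ R ∈ W.support, (W R : ℝ)) * c
        + ((∑ R ∈ W.support, (W R : ℝ)) * ((D P : ℝ) * hP P)
          + (D P : ℝ) * (∑ R ∈ W.support, (W R : ℝ) * hP R)) / dl := by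
    intro P _
    rw [Finset.mul_sum, Finset.sum_mul, Finset.sum_mul, Finset.mul_sum, ← Finset.sum_add_distrib,
      Finset.sum_div, ← Finset.sum_add_distrib]
    refine Finset.sum_congr rfl fun R _ => ?_
    ring
  rw [Finset.sum_congr rfl e1, Finset.sum_add_distrib, ← Finset.sum_div,
    Finset.sum_add_distrib, ← Finset.mul_sum, ← Finset.sum_mul, ← Finset.sum_mul,
    ← Finset.sum_mul]

end Fermat.Agent.S17.Abs.Trivial
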