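import Mathlib
import Fermat.Agent.S17.Abs.PairQuad
import Fermat.Agent.S17.Abs.DegZero
import Fermat.Agent.S17.Abs.Trivial

/-!
# PROJECT H (S17), Part B: LEMMA T and B.13-prime in abstract form

Frame: `b : X → X → ℝ` a symmetric pairing on points, `h : X → ℝ` a nonnegative height on points,
`δ > 0`, with `b P R ≤ c₀ + (h P + h R)/δ` for `P ≠ R` (the trivial bound, `c₀ = log 2`).
`PP` the packets, `ZZ ⊆ PP` the zero divisors of rational linear forms (effective of degree `δ`,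
containing `δ ∞`), with the reciprocity law B.4
`|⟨D, Z⟩ - deg D · κ Z| ≤ γ |D|₁` on `PP × ZZ`.

* `T_bound` (LEMMA T): for `W ≤ Z ∈ ZZ` effective there is `C` with
  `|⟨D - (deg D) ∞, W - r ∞⟩| ≤ h(D) + C` for all effective packets `D` of degree `≤ g`.
* `degZero_T` (B.13-prime): if `ρ` is additive under doubling up to corrections `EE` with
  `|⟨D₁, E⟩| ≤ C |D₁|₁` and every `ρ y` is of the form `W - r ∞` as above, then for every `ε > 0`
  `|⟨D - (deg D) ∞, ρ y⟩| ≤ ε h(D)/δ + C₁(y, ε)`.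
* `degZero_T_add`: the same for `E₀ = ρ y + ∑ ± E_j`, `E_j ∈ EE`.

Mathlib + `Abs/PairQuad`, `Abs/DegZero`, `Abs/Trivial`.
-/

set_option autoImplicit false

namespace Fermat.Agent.S17.Abs.DegZeroT

open Fermat.Agent.S17.Abs.PairQuad Finsupp

variable {X : Type*}

/-- the degree of a divisor as a real number -/
noncomputable def degF (D : X →₀ ℤ) : ℝ := ∑ P ∈ D.support, (D P : ℝ)

/-- the height `∑_P D(P) h(P)` of a divisor -/
noncomputable def hgtF (h : X → ℝ) (D : X →₀ ℤ) : ℝ := ∑ P ∈ D.support, (D P : ℝ) * h P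

lemma coe_nonneg_of_nonneg {D : X →₀ ℤ} (hD : 0 ≤ D) (P : X) : (0 : ℝ) ≤ (D P : ℝ) := by
  exact_mod_cast (Finsupp.le_def.mp hD) P

lemma degF_nonneg {D : X →₀ ℤ} (hD : 0 ≤ D) : 0 ≤ degF D :=
  Finset.sum_nonneg fun P _ => coe_nonneg_of_nonneg hD P

lemma hgtF_nonneg {h : X → ℝ} (hh : ∀ P, 0 ≤ h P) {D : X →₀ ℤ} (hD : 0 ≤ D) : 0 ≤ hgtF h D :=
  Finset.sum_nonneg fun P _ => mul_nonneg (coe_nonneg_of_nonneg hD P) (hh P)

lemma nrm1_eq_degF {D : X →₀ ℤ} (hD : 0 ≤ D) : nrm1 D = degF D := by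
  unfold nrm1 degF
  exact Finset.sum_congr rfl fun P _ => abs_of_nonneg (coe_nonneg_of_nonneg hD P)

lemma degF_eq_cast (deg : (X →₀ ℤ) →+ ℤ) (hdeg : ∀ P n, deg (single P n) = n) (D : X →₀ ℤ) :
    degF D = ((deg D : ℤ) : ℝ) := by
  have h1 : deg D = ∑ P ∈ D.support, D P := by
    conv_lhs => rw [← Finsupp.sum_single D]
    rw [Finsupp.sum, map_sum]
    exact Finset.sum_congr rfl fun P _ => hdeg P (D P)
  rw [h1, degF, Int.cast_sum]

/-! ### LEMMA T (i): the upper bound with a constant depending on `W` only -/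

theorem exists_Bil_le {b : X → X → ℝ} {h : X → ℝ} {c0 dl : ℝ} (hc0 : 0 ≤ c0) (hdl : 0 < dl)
    (hne : ∀ P R, P ≠ R → b P R ≤ c0 + (h P + h R) / dl) (W : X →₀ ℤ) (hW : 0 ≤ W) :
    ∃ c : ℝ, 0 ≤ c ∧ ∀ D : X →₀ ℤ, 0 ≤ D →
      Bil b D W ≤ degF D * degF W * c + (degF W * hgtF h D + degF D * hgtF h W) / dl := by
  refine ⟨c0 + ∑ R ∈ W.support, |b R R - 2 * h R / dl|,
    add_nonneg hc0 (Finset.sum_nonneg fun _ _ => abs_nonneg _), fun D hD => ?_⟩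
  refine Trivial.Bil_le_of_nonneg h hdl D W hD hW fun P _ R hR => ?_
  have hsum : 0 ≤ ∑ R ∈ W.support, |b R R - 2 * h R / dl| :=
    Finset.sum_nonneg fun _ _ => abs_nonneg _
  by_cases hPR : P = R
  · subst hPR
    have h1 : |b P P - 2 * h P / dl| ≤ ∑ R ∈ W.support, |b R R - 2 * h R / dl| :=
      Finset.single_le_sum (f := fun R => |b R R - 2 * h R / dl|) (fun _ _ => abs_nonneg _) hR
    have h2 := le_abs_self (b P P - 2 * h P / dl)
    have h3 : (h P + h P) / dl = 2 * h P / dl := by ring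
    rw [h3]
    linarith
  · have := hne P R hPR
    linarith

/-! ### LEMMA T -/

section T

variable {b : X → X → ℝ} {h : X → ℝ} {c0 dl γ : ℝ}

/-- **LEMMA T (ii)**: two-sided bound of `⟨D, W⟩` for a fixed effective `W ≤ Z ∈ ZZ`. -/
theorem exists_abs_Bil_le (hc0 : 0 ≤ c0) (hdl : 0 < dl) (hγ : 0 ≤ γ)
    (hne : ∀ P R, P ≠ R → b P R ≤ c0 + (h P + h R) / dl) (hh : ∀ P, 0 ≤ h P)
    (PP : AddSubgroup (X →₀ ℤ)) (κZ : ℝ) {W Z : X →₀ ℤ} (hW : 0 ≤ W) (hWZ : W ≤ Z)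
    (hZd : degF Z = dl)
    (hB4 : ∀ D ∈ PP, |Bil b D Z - degF D * κZ| ≤ γ * nrm1 D) :
    ∃ C : ℝ, 0 ≤ C ∧ ∀ D ∈ PP, 0 ≤ D → |Bil b D W| ≤ hgtF h D + C * degF D := by
  have hW' : 0 ≤ Z - W := sub_nonneg.mpr hWZ
  obtain ⟨c1, hc1, h1⟩ := exists_Bil_le hc0 hdl hne W hW
  obtain ⟨c2, hc2, h2⟩ := exists_Bil_le hc0 hdl hne (Z - W) hW'
  have hdW : 0 ≤ degF W := degF_nonneg hW
  have hdW' : 0 ≤ degF (Z - W) := degF_nonneg hW'
  -- `deg W + deg (Z - W) = deg Z = δ`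
  have hadd : degF W + degF (Z - W) = dl := by
    rw [← hZd]
    classical
    have key : ∀ E : X →₀ ℤ, E.support ⊆ Z.support ∪ W.support →
        degF E = ∑ P ∈ Z.support ∪ W.support, (E P : ℝ) := by
      intro E hE
      unfold degF
      refine Finset.sum_subset hE fun P _ hP => ?_
      rw [Finsupp.notMem_support_iff.mp hP]; simp
    rw [key W Finset.subset_union_right, key Z Finset.subset_union_left,
      key (Z - W) (Finsupp.support_sub.trans (by rw [Finset.union_comm])),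
      ← Finset.sum_add_distrib]
    refine Finset.sum_congr rfl fun P _ => ?_
    rw [Finsupp.sub_apply]; push_cast; ring
  have hWle : degF W ≤ dl := by linarith
  have hW'le : degF (Z - W) ≤ dl := by linarith
  refine ⟨degF W * c1 + |hgtF h W| / dl + (|κZ| + γ + degF (Z - W) * c2 + |hgtF h (Z - W)| / dl),
    by positivity, fun D hDP hD => ?_⟩
  have hr : 0 ≤ degF D := degF_nonneg hD
  have hH : 0 ≤ hgtF h D := hgtF_nonneg hh hD
  have u1 := h1 D hD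
  have u2 := h2 D hD
  have u3 := hB4 D hDP
  rw [nrm1_eq_degF hD] at u3
  have e : Bil b D W = Bil b D Z - Bil b D (Z - W) := by
    rw [Bil_sub_right]; ring
  -- the coefficients of `h(D)` are at most `1`
  have k1 : degF W * hgtF h D / dl ≤ hgtF h D := by
    rw [div_le_iff₀ hdl]; nlinarith
  have k2 : degF (Z - W) * hgtF h D / dl ≤ hgtF h D := by
    rw [div_le_iff₀ hdl]; nlinarith
  have k3 : degF D * hgtF h W / dl ≤ degF D * (|hgtF h W| / dl) := by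
    rw [mul_div_assoc]
    exact mul_le_mul_of_nonneg_left (div_le_div_of_nonneg_right (le_abs_self _) hdl.le) hr
  have k4 : degF D * hgtF h (Z - W) / dl ≤ degF D * (|hgtF h (Z - W)| / dl) := by
    rw [mul_div_assoc]
    exact mul_le_mul_of_nonneg_left (div_le_div_of_nonneg_right (le_abs_self _) hdl.le) hr
  have k5 : -(degF D * |κZ|) ≤ degF D * κZ := by
    have := neg_abs_le κZ
    nlinarith
  rw [add_div] at u1 u2
  rw [abs_le] at u3 ⊢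
  constructor
  · -- lower bound
    rw [e]
    nlinarith [u3.1, u2, k2, k4, k5, mul_nonneg hr (mul_nonneg hdW hc1),
      mul_nonneg hr (div_nonneg (abs_nonneg (hgtF h W)) hdl.le)]
  · -- upper bound
    nlinarith [u1, k1, k3, mul_nonneg hr (abs_nonneg κZ), mul_nonneg hr hγ,
      mul_nonneg hr (mul_nonneg hdW' hc2),
      mul_nonneg hr (div_nonneg (abs_nonneg (hgtF h (Z - W))) hdl.le)]

end T

/-! ### LEMMA T (iii), (T) and B.13-prime -/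

section Main

variable {b : X → X → ℝ} {h : X → ℝ} {c0 dl γ : ℝ}

lemma Bil_single_right (b : X → X → ℝ) (D : X →₀ ℤ) (P : X) (m : ℤ) :
    Bil b D (single P m) = (m : ℝ) * Bil b D (single P 1) := by
  have h1 : single P m = m • single P (1 : ℤ) := by simp
  rw [h1]
  show BilHom b D (m • single P (1 : ℤ)) = (m : ℝ) * BilHom b D (single P 1)
  rw [map_zsmul, zsmul_eq_mul]

/-- **LEMMA T (iii)**: the pairing with `∞` through the form `e₀` with `Z(e₀) = δ ∞`. -/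
theorem abs_Bil_single_oo_le (hdl : 0 < dl) (PP : AddSubgroup (X →₀ ℤ)) (κoo : ℝ) (oo : X)
    (δ : ℤ) (hδ : (δ : ℝ) = dl)
    (hB4oo : ∀ D ∈ PP, |Bil b D (single oo δ) - degF D * κoo| ≤ γ * nrm1 D)
    {D : X →₀ ℤ} (hDP : D ∈ PP) (hD : 0 ≤ D) :
    |Bil b D (single oo 1)| ≤ degF D * ((|κoo| + γ) / dl) := by
  have hr : 0 ≤ degF D := degF_nonneg hD
  have u := hB4oo D hDP
  rw [nrm1_eq_degF hD, Bil_single_right, hδ] at u
  have k1 : |degF D * κoo| = degF D * |κoo| := by rw [abs_mul, abs_of_nonneg hr]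
  have u2 : |dl * Bil b D (single oo 1)| ≤ degF D * |κoo| + γ * degF D := by
    have := abs_sub_abs_le_abs_sub (dl * Bil b D (single oo 1)) (degF D * κoo)
    rw [k1] at this
    linarith
  rw [abs_mul, abs_of_pos hdl] at u2
  rw [mul_div_assoc', le_div_iff₀ hdl]
  linarith

/-- **LEMMA (T).** -/
theorem T_bound (hc0 : 0 ≤ c0) (hdl : 0 < dl) (hγ : 0 ≤ γ)
    (hne : ∀ P R, P ≠ R → b P R ≤ c0 + (h P + h R) / dl) (hh : ∀ P, 0 ≤ h P)
    (PP : AddSubgroup (X →₀ ℤ)) (oo : X) (δ : ℤ) (hδ : (δ : ℝ) = dl) (κoo κZ : ℝ)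
    (hB4oo : ∀ D ∈ PP, |Bil b D (single oo δ) - degF D * κoo| ≤ γ * nrm1 D)
    {W Z : X →₀ ℤ} (hW : 0 ≤ W) (hWZ : W ≤ Z) (hZd : degF Z = dl)
    (hB4 : ∀ D ∈ PP, |Bil b D Z - degF D * κZ| ≤ γ * nrm1 D) (ry : ℤ) (g : ℝ) :
    ∃ C : ℝ, ∀ D ∈ PP, 0 ≤ D → degF D ≤ g → ∀ r : ℤ, (r : ℝ) = degF D →
      |Bil b (D - single oo r) (W - single oo ry)| ≤ hgtF h D + C := by
  obtain ⟨C1, hC1, h1⟩ := exists_abs_Bil_le hc0 hdl hγ hne hh PP κZ hW hWZ hZd hB4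
  set K2 : ℝ := (|κoo| + γ) / dl with hK2
  have hK2' : 0 ≤ K2 := by positivity
  set c3 : ℝ := Bil b (single oo 1) W with hc3
  refine ⟨g * (C1 + |(ry : ℝ)| * K2 + |c3| + |(ry : ℝ)| * |b oo oo|), fun D hDP hD hDg r hr => ?_⟩
  have hrr : 0 ≤ degF D := degF_nonneg hD
  have e : Bil b (D - single oo r) (W - single oo ry)
      = Bil b D W - (ry : ℝ) * Bil b D (single oo 1) - degF D * c3
        + degF D * (ry : ℝ) * b oo oo := by
    rw [Bil_sub_left, Bil_sub_right, Bil_sub_right, Bil_single_right b D oo ry,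
      Bil_single_left b oo r W, Bil_single_single, hr]
    ring
  have u1 := h1 D hDP hD
  have u2 := abs_Bil_single_oo_le hdl PP κoo oo δ hδ hB4oo hDP hD
  rw [← hK2] at u2
  -- bound the four terms
  have t2 : |(ry : ℝ) * Bil b D (single oo 1)| ≤ degF D * (|(ry : ℝ)| * K2) := by
    rw [abs_mul]
    calc |(ry : ℝ)| * |Bil b D (single oo 1)| ≤ |(ry : ℝ)| * (degF D * K2) :=
          mul_le_mul_of_nonneg_left u2 (abs_nonneg _)
      _ = degF D * (|(ry : ℝ)| * K2) := by ring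
  have t3 : |degF D * c3| = degF D * |c3| := by rw [abs_mul, abs_of_nonneg hrr]
  have t4 : |degF D * (ry : ℝ) * b oo oo| = degF D * (|(ry : ℝ)| * |b oo oo|) := by
    rw [abs_mul, abs_mul, abs_of_nonneg hrr]; ring
  have hsum : |Bil b D W - (ry : ℝ) * Bil b D (single oo 1) - degF D * c3
        + degF D * (ry : ℝ) * b oo oo|
      ≤ |Bil b D W| + |(ry : ℝ) * Bil b D (single oo 1)| + |degF D * c3|
        + |degF D * (ry : ℝ) * b oo oo| := by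
    rw [abs_le]
    constructor <;>
    linarith [neg_abs_le (Bil b D W), le_abs_self (Bil b D W),
      neg_abs_le ((ry : ℝ) * Bil b D (single oo 1)), le_abs_self ((ry : ℝ) * Bil b D (single oo 1)),
      neg_abs_le (degF D * c3), le_abs_self (degF D * c3),
      neg_abs_le (degF D * (ry : ℝ) * b oo oo), le_abs_self (degF D * (ry : ℝ) * b oo oo)]
  rw [e]
  refine hsum.trans ?_
  rw [t3, t4]
  have hKK : 0 ≤ C1 + |(ry : ℝ)| * K2 + |c3| + |(ry : ℝ)| * |b oo oo| := by positivity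
  have : degF D * (C1 + |(ry : ℝ)| * K2 + |c3| + |(ry : ℝ)| * |b oo oo|)
      ≤ g * (C1 + |(ry : ℝ)| * K2 + |c3| + |(ry : ℝ)| * |b oo oo|) :=
    mul_le_mul_of_nonneg_right hDg hKK
  nlinarith [u1, t2, this]

end Main

/-! ### B.13-prime -/

section B13

variable {b : X → X → ℝ} {h : X → ℝ} {c0 dl γ : ℝ} {J : Type*} [AddCommGroup J]

lemma erase_sub_single {D : X →₀ ℤ} {oo : X} (hoo : D oo = 0) (r : ℤ) :
    (D - single oo r).erase oo = D := by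
  ext P
  by_cases hP : P = oo
  · subst hP; rw [Finsupp.erase_same, hoo]
  · rw [Finsupp.erase_ne hP, Finsupp.sub_apply, Finsupp.single_eq_of_ne hP, sub_zero]

lemma nrm1_sub_single_le {D : X →₀ ℤ} (hD : 0 ≤ D) (oo : X) {r : ℤ} (hr : (r : ℝ) = degF D) :
    nrm1 (D - single oo r) ≤ 2 * degF D := by
  refine (nrm1_sub_le _ _).trans ?_
  rw [nrm1_single, hr, abs_of_nonneg (degF_nonneg hD), nrm1_eq_degF hD]
  linarith

/-- **B.13-prime** for `ρ y` of the shape `W - r ∞`, `W ≤ Z ∈ ZZ`: the pairing of a degree-zero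
packet `D - (deg D) ∞` (`D` effective of degree `≤ g` off `∞`) against `ρ y` is `o(h(D))`. -/
theorem degZero_T (hc0 : 0 ≤ c0) (hdl : 0 < dl) (hγ : 0 ≤ γ)
    (hne : ∀ P R, P ≠ R → b P R ≤ c0 + (h P + h R) / dl) (hh : ∀ P, 0 ≤ h P)
    (PP PP0 : AddSubgroup (X →₀ ℤ)) (oo : X) (δ : ℤ) (hδ : (δ : ℝ) = dl) (κoo : ℝ)
    (hB4oo : ∀ D ∈ PP, |Bil b D (single oo δ) - degF D * κoo| ≤ γ * nrm1 D)
    (hPP0 : ∀ D ∈ PP, ∀ r : ℤ, (r : ℝ) = degF D → D - single oo r ∈ PP0)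
    (EE : Set (X →₀ ℤ)) {C : ℝ} (hC : 0 ≤ C)
    (hR : ∀ D ∈ PP0, ∀ E ∈ EE, |Bil b D E| ≤ C * nrm1 D)
    (ρ : J → X →₀ ℤ) (hdbl : ∀ z : J, ∃ E ∈ EE, ρ (z + z) = ρ z + ρ z + E)
    (hρ : ∀ y : J, ∃ W Z : X →₀ ℤ, ∃ κZ : ℝ, ∃ ry : ℤ, 0 ≤ W ∧ W ≤ Z ∧ degF Z = dl ∧
      (∀ D ∈ PP, |Bil b D Z - degF D * κZ| ≤ γ * nrm1 D) ∧ ρ y = W - single oo ry)
    (g : ℝ) (y : J) {ε : ℝ} (hε : 0 < ε) :
    ∃ C1 : ℝ, ∀ D ∈ PP, 0 ≤ D → degF D ≤ g → D oo = 0 → ∀ r : ℤ, (r : ℝ) = degF D →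
      |Bil b (D - single oo r) (ρ y)| ≤ ε * (hgtF h D / dl) + C1 := by
  set SS : Set (X →₀ ℤ) := {D1 | ∃ D ∈ PP, 0 ≤ D ∧ degF D ≤ g ∧ D oo = 0 ∧
    ∃ r : ℤ, (r : ℝ) = degF D ∧ D1 = D - single oo r} with hSS
  have key := DegZero.degZero (b := b) PP0 EE hR ρ hdbl hC SS
    (fun D1 ⟨D, hDP, _, _, _, r, hr, e⟩ => e ▸ hPP0 D hDP r hr) (s := 2 * g) (A := dl)
    (fun D1 ⟨D, _, hD, hDg, _, r, hr, e⟩ => by
      rw [e]
      exact (nrm1_sub_single_le hD oo hr).trans (by linarith))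
    hdl.le (fun D1 => hgtF h (D1.erase oo) / dl)
    (fun D1 ⟨D, _, hD, _, hoo, r, _, e⟩ => by
      rw [e, erase_sub_single hoo]
      exact div_nonneg (hgtF_nonneg hh hD) hdl.le)
    (fun y' => by
      obtain ⟨W, Z, κZ, ry, hW, hWZ, hZd, hB4, e⟩ := hρ y'
      obtain ⟨C0, hC0⟩ := T_bound hc0 hdl hγ hne hh PP oo δ hδ κoo κZ hB4oo hW hWZ hZd hB4 ry g
      refine ⟨C0, ?_⟩
      rintro D1 ⟨D, hDP, hD, hDg, hoo, r, hr, rfl⟩
      rw [erase_sub_single hoo, e, mul_div_cancel₀ _ hdl.ne']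
      exact hC0 D hDP hD hDg r hr)
    y hε
  obtain ⟨C1, hC1⟩ := key
  refine ⟨C1, fun D hDP hD hDg hoo r hr => ?_⟩
  have := hC1 (D - single oo r) ⟨D, hDP, hD, hDg, hoo, r, hr, rfl⟩
  rwa [erase_sub_single hoo] at this

lemma abs_Bil_list_sum_le {EE : Set (X →₀ ℤ)} {C : ℝ} {D1 : X →₀ ℤ}
    (hR : ∀ E ∈ EE, |Bil b D1 E| ≤ C * nrm1 D1) (l : List (X →₀ ℤ))
    (hl : ∀ E ∈ l, E ∈ EE ∨ -E ∈ EE) : |Bil b D1 l.sum| ≤ l.length * (C * nrm1 D1) := by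
  induction l with
  | nil => simp
  | cons E l ih =>
    rw [List.sum_cons, Bil_add_right, List.length_cons]
    have h1 : |Bil b D1 E| ≤ C * nrm1 D1 := by
      rcases hl E (List.mem_cons_self) with hE | hE
      · exact hR E hE
      · have := hR (-E) hE
        rwa [Bil_neg_right, abs_neg] at this
    have h2 := ih fun E' hE' => hl E' (List.mem_cons_of_mem _ hE')
    refine (abs_add_le _ _).trans ?_
    push_cast
    linarith

/-- **B.13-prime, corollary**: the same for `E₀ = ρ y + ∑ ± E_j` with `E_j ∈ EE`. -/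
theorem degZero_T_add (hc0 : 0 ≤ c0) (hdl : 0 < dl) (hγ : 0 ≤ γ)
    (hne : ∀ P R, P ≠ R → b P R ≤ c0 + (h P + h R) / dl) (hh : ∀ P, 0 ≤ h P)
    (PP PP0 : AddSubgroup (X →₀ ℤ)) (oo : X) (δ : ℤ) (hδ : (δ : ℝ) = dl) (κoo : ℝ)
    (hB4oo : ∀ D ∈ PP, |Bil b D (single oo δ) - degF D * κoo| ≤ γ * nrm1 D)
    (hPP0 : ∀ D ∈ PP, ∀ r : ℤ, (r : ℝ) = degF D → D - single oo r ∈ PP0)
    (EE : Set (X →₀ ℤ)) {C : ℝ} (hC : 0 ≤ C)
    (hR : ∀ D ∈ PP0, ∀ E ∈ EE, |Bil b D E| ≤ C * nrm1 D)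
    (ρ : J → X →₀ ℤ) (hdbl : ∀ z : J, ∃ E ∈ EE, ρ (z + z) = ρ z + ρ z + E)
    (hρ : ∀ y : J, ∃ W Z : X →₀ ℤ, ∃ κZ : ℝ, ∃ ry : ℤ, 0 ≤ W ∧ W ≤ Z ∧ degF Z = dl ∧
      (∀ D ∈ PP, |Bil b D Z - degF D * κZ| ≤ γ * nrm1 D) ∧ ρ y = W - single oo ry)
    (g : ℝ) (y : J) (l : List (X →₀ ℤ)) (hl : ∀ E ∈ l, E ∈ EE ∨ -E ∈ EE) {E0 : X →₀ ℤ}
    (hE0 : E0 = ρ y + l.sum) {ε : ℝ} (hε : 0 < ε) :
    ∃ C1 : ℝ, ∀ D ∈ PP, 0 ≤ D → degF D ≤ g → D oo = 0 → ∀ r : ℤ, (r : ℝ) = degF D →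
      |Bil b (D - single oo r) E0| ≤ ε * (hgtF h D / dl) + C1 := by
  obtain ⟨C1, hC1⟩ := degZero_T hc0 hdl hγ hne hh PP PP0 oo δ hδ κoo hB4oo hPP0 EE hC hR ρ hdbl hρ
    g y hε
  refine ⟨C1 + l.length * (C * (2 * g)), fun D hDP hD hDg hoo r hr => ?_⟩
  have h1 := hC1 D hDP hD hDg hoo r hr
  have h2 := abs_Bil_list_sum_le (b := b) (D1 := D - single oo r)
    (fun E hE => hR _ (hPP0 D hDP r hr) E hE) l hl
  have h3 : nrm1 (D - single oo r) ≤ 2 * g :=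
    (nrm1_sub_single_le hD oo hr).trans (by linarith)
  have h4 : (l.length : ℝ) * (C * nrm1 (D - single oo r)) ≤ l.length * (C * (2 * g)) :=
    mul_le_mul_of_nonneg_left (mul_le_mul_of_nonneg_left h3 hC) (Nat.cast_nonneg _)
  rw [hE0, Bil_add_right]
  refine (abs_add_le _ _).trans ?_
  linarith

end B13

end Fermat.Agent.S17.Abs.DegZeroT
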