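/-
PROJECT H (S17), scratch slice (helper4): the abstract Laplace induction of H0.16.

One field `Om` with one absolute value `abv`.  `ev P a` is the value at the point `P` of the
`a`-th basis form `F_a` (`a : Fin g`); `w P` a local weight (`‖x̃ P‖^e ∏_{T ∈ E+B} d(P,T)`),
`d P R` the local chordal distance.  Hypothesis `(U)` is the UPPER half of the local two-sided
lemma H0.8 in consumer form: a linear combination `F* = ∑ c_a F_a` vanishing at pairwise distinct
points `R_1, …, R_k` satisfies `|F*(P)| ≤ C ‖c‖ w(P) ∏_i d(P, R_i)`.

Conclusion: for pairwise distinct points `P_1, …, P_r` and an injective choice of columns,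
`|det [F_{a_j}(P_i)]| ≤ C^r ∏_i w(P_i) ∏_{j < i} d(P_i, P_j)`, with NO extra combinatorial constant
(the coefficient vector of `F*` is the vector of `(r-1)`-minors).

Mathlib only.
-/
import Mathlib

set_option autoImplicit false

namespace Fermat.Agent.S17.Abs.LaplaceDet

open Matrix Finset

variable {Om : Type*} [Field Om] (abv : AbsoluteValue Om ℝ) {X : Type*} {g : ℕ}
  (ev : X → Fin g → Om) (w : X → ℝ) (d : X → X → ℝ) (C : ℝ)

/-- hypothesis `(U)`: the upper half of the local two-sided lemma, for linear combinations of the
basis forms vanishing at prescribed pairwise distinct points -/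
def UpperHyp : Prop :=
  ∀ (k : ℕ) (R : Fin k → X), Function.Injective R → ∀ (c : Fin g → Om) (M : ℝ),
    (∀ a, abv (c a) ≤ M) → (∀ i, ∑ a, c a * ev (R i) a = 0) → ∀ P : X,
      abv (∑ a, c a * ev P a) ≤ C * M * w P * ∏ i, d P (R i)

/-- the matrix of values `[F_{a_j}(P_i)]` -/
def valMat {r : ℕ} (a : Fin r → Fin g) (P : Fin r → X) : Matrix (Fin r) (Fin r) Om :=
  Matrix.of fun i j => ev (P i) (a j)

/-- the claimed bound, in closed form -/
noncomputable def bound {r : ℕ} (P : Fin r → X) : ℝ :=
  C ^ r * (∏ i, w (P i)) * ∏ i : Fin r, ∏ j : Fin r, if j < i then d (P i) (P j) else 1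

variable {w d C}

theorem bound_nonneg (hC : 0 ≤ C) (hw : ∀ P, 0 ≤ w P) (hd : ∀ P R, 0 ≤ d P R) {r : ℕ}
    (P : Fin r → X) : 0 ≤ bound w d C P := by
  unfold bound
  refine mul_nonneg (mul_nonneg (pow_nonneg hC _) (prod_nonneg fun i _ => hw _))
    (prod_nonneg fun i _ => prod_nonneg fun j _ => ?_)
  split_ifs
  · exact hd _ _
  · exact zero_le_one

theorem bound_succ {r : ℕ} (P : Fin (r + 1) → X) :
    bound w d C P = bound w d C (P ∘ Fin.castSucc) *
      (C * w (P (Fin.last r)) * ∏ i : Fin r, d (P (Fin.last r)) (P (Fin.castSucc i))) := by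
  unfold bound
  rw [Fin.prod_univ_castSucc (fun i => w (P i)), Fin.prod_univ_castSucc
    (fun i : Fin (r + 1) => ∏ j : Fin (r + 1), if j < i then d (P i) (P j) else 1)]
  have h1 : ∀ i : Fin r, (∏ j : Fin (r + 1),
      if j < Fin.castSucc i then d (P (Fin.castSucc i)) (P j) else 1)
        = ∏ j : Fin r, if j < i then d (P (Fin.castSucc i)) (P (Fin.castSucc j)) else 1 := by
    intro i
    rw [Fin.prod_univ_castSucc]
    have : ¬ Fin.last r < Fin.castSucc i := not_lt.mpr (Fin.le_last _)
    rw [if_neg this, mul_one]
    refine prod_congr rfl fun j _ => ?_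
    simp only [Fin.castSucc_lt_castSucc_iff]
  have h2 : (∏ j : Fin (r + 1), if j < Fin.last r then d (P (Fin.last r)) (P j) else 1)
      = ∏ j : Fin r, d (P (Fin.last r)) (P (Fin.castSucc j)) := by
    rw [Fin.prod_univ_castSucc, if_neg (lt_irrefl _), mul_one]
    refine prod_congr rfl fun j _ => ?_
    rw [if_pos (Fin.castSucc_lt_last j)]
  simp only [h1, h2, Function.comp_apply]
  ring

variable (w d C)

/-- **Laplace induction** (H0.16, distinct points). -/
theorem abv_det_le (hC : 0 ≤ C) (hw : ∀ P, 0 ≤ w P) (hd : ∀ P R, 0 ≤ d P R)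
    (hU : UpperHyp abv ev w d C) :
    ∀ (r : ℕ) (a : Fin r → Fin g) (P : Fin r → X), Function.Injective a → Function.Injective P →
      abv (valMat ev a P).det ≤ bound w d C P := by
  intro r
  induction r with
  | zero =>
    intro a P _ _
    simp [bound]
  | succ r ih =>
    intro a P ha hP
    classical
    -- the minors along the last row
    set minor : Fin (r + 1) → Om := fun j =>
      ((valMat ev a P).submatrix (Fin.last r).succAbove j.succAbove).det with hminor
    set sgn : Fin (r + 1) → Om := fun j => (-1) ^ ((Fin.last r : ℕ) + (j : ℕ)) with hsgn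
    -- the coefficient vector of `F*`
    set c : Fin g → Om := fun α => ∑ j, if a j = α then sgn j * minor j else 0 with hc
    have hFstar : ∀ Q : X, ∑ α, c α * ev Q α = ∑ j, sgn j * ev Q (a j) * minor j := by
      intro Q
      simp only [hc, sum_mul]
      rw [sum_comm]
      refine sum_congr rfl fun j _ => ?_
      simp only [ite_mul, zero_mul]
      rw [sum_ite_eq univ (a j) (fun α => sgn j * minor j * ev Q α), if_pos (mem_univ _)]
      ring
    -- `F*(P_last) = det`
    have hlast : ∑ α, c α * ev (P (Fin.last r)) α = (valMat ev a P).det := by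
      rw [hFstar, det_succ_row (valMat ev a P) (Fin.last r)]
      rfl
    -- `F*` vanishes at the earlier points
    have hvanish : ∀ i : Fin r, ∑ α, c α * ev (P (Fin.castSucc i)) α = 0 := by
      intro i
      rw [hFstar]
      have hne : Fin.castSucc i ≠ Fin.last r := (Fin.castSucc_lt_last i).ne
      have hdet : ((valMat ev a P).updateRow (Fin.last r)
          (valMat ev a P (Fin.castSucc i))).det = 0 := by
        refine det_zero_of_row_eq hne ?_
        rw [updateRow_self, updateRow_ne hne]
      rw [det_succ_row _ (Fin.last r)] at hdet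
      rw [← hdet]
      refine sum_congr rfl fun j _ => ?_
      rw [submatrix_updateRow_succAbove, updateRow_self]
      rfl
    -- the minors are bounded by induction
    have hP' : Function.Injective (P ∘ Fin.castSucc) :=
      hP.comp (Fin.castSucc_injective r)
    have hminor_le : ∀ j, abv (minor j) ≤ bound w d C (P ∘ Fin.castSucc) := by
      intro j
      have hsub : (valMat ev a P).submatrix (Fin.last r).succAbove j.succAbove
          = valMat ev (a ∘ j.succAbove) (P ∘ Fin.castSucc) := by
        ext i k
        simp [valMat, Fin.succAbove_last]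
      rw [hminor]
      simp only [hsub]
      exact ih (a ∘ j.succAbove) (P ∘ Fin.castSucc)
        (ha.comp Fin.succAbove_right_injective) hP'
    have hB := bound_nonneg (C := C) hC hw hd (P ∘ Fin.castSucc)
    have hc_le : ∀ α, abv (c α) ≤ bound w d C (P ∘ Fin.castSucc) := by
      intro α
      by_cases hα : ∃ j₀, a j₀ = α
      · obtain ⟨j₀, hj₀⟩ := hα
        have : c α = sgn j₀ * minor j₀ := by
          rw [hc]
          simp only
          rw [sum_eq_single j₀]
          · rw [if_pos hj₀]
          · intro j _ hj
            rw [if_neg]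
            intro h
            exact hj (ha (h.trans hj₀.symm))
          · intro h
            exact absurd (mem_univ _) h
        rw [this, map_mul, hsgn]
        simp only [map_pow, AbsoluteValue.map_neg, AbsoluteValue.map_one, one_pow, one_mul]
        exact hminor_le j₀
      · have : c α = 0 := by
          rw [hc]
          simp only
          refine sum_eq_zero fun j _ => ?_
          rw [if_neg]
          intro h
          exact hα ⟨j, h⟩
        rw [this, map_zero]
        exact hB
    have key := hU r (P ∘ Fin.castSucc) hP' c _ hc_le hvanish (P (Fin.last r))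
    rw [hlast] at key
    rw [bound_succ]
    refine key.trans (le_of_eq ?_)
    simp only [Function.comp_apply]
    ring

/-! ### the flag (confluent) form: an ordered list of linear conditions (H0.16 + H0.17 = B.10)

`ev k` is the `k`-th linear condition (`F ↦ F^[j](P_i)` in lexicographic order), `W k ≥ 0` its
weight.  Hypothesis: a combination `F* = ∑ c_a F_a` killed by the first `k` conditions has
`|cond_k(F*)| ≤ C ‖c‖ W_k`.  Conclusion: `|det [cond_k(F_{a_j})]| ≤ C^r ∏_k W_k`. -/

section Flag

variable {Om : Type*} [Field Om] (abv : AbsoluteValue Om ℝ) {g : ℕ} (C : ℝ)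

/-- **Triangular Laplace induction** (abstract form of B.10: distinct AND repeated points). -/
theorem abv_det_le_of_flag (hC : 0 ≤ C) :
    ∀ (r : ℕ) (ev : Fin r → Fin g → Om) (W : Fin r → ℝ), (∀ k, 0 ≤ W k) →
      (∀ (k : Fin r) (c : Fin g → Om) (M : ℝ), (∀ a, abv (c a) ≤ M) →
        (∀ k', k' < k → ∑ a, c a * ev k' a = 0) → abv (∑ a, c a * ev k a) ≤ C * M * W k) →
      ∀ a : Fin r → Fin g, Function.Injective a →
        abv (Matrix.of fun k j => ev k (a j)).det ≤ C ^ r * ∏ k, W k := by
  intro r
  induction r with
  | zero =>
    intro ev W _ _ a _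
    simp
  | succ r ih =>
    intro ev W hW hU a ha
    classical
    set A : Matrix (Fin (r + 1)) (Fin (r + 1)) Om := Matrix.of fun k j => ev k (a j) with hA
    set minor : Fin (r + 1) → Om := fun j =>
      (A.submatrix (Fin.last r).succAbove j.succAbove).det with hminor
    set sgn : Fin (r + 1) → Om := fun j => (-1) ^ ((Fin.last r : ℕ) + (j : ℕ)) with hsgn
    set c : Fin g → Om := fun α => ∑ j, if a j = α then sgn j * minor j else 0 with hc
    have hFstar : ∀ v : Fin g → Om, ∑ α, c α * v α = ∑ j, sgn j * v (a j) * minor j := by
      intro v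
      simp only [hc, sum_mul]
      rw [sum_comm]
      refine sum_congr rfl fun j _ => ?_
      simp only [ite_mul, zero_mul]
      rw [sum_ite_eq univ (a j) (fun α => sgn j * minor j * v α), if_pos (mem_univ _)]
      ring
    have hlast : ∑ α, c α * ev (Fin.last r) α = A.det := by
      rw [hFstar, det_succ_row A (Fin.last r)]
      rfl
    have hvanish : ∀ k', k' < Fin.last r → ∑ α, c α * ev k' α = 0 := by
      intro k' hk'
      rw [hFstar]
      have hne : k' ≠ Fin.last r := hk'.ne
      have hdet : (A.updateRow (Fin.last r) (A k')).det = 0 := by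
        refine det_zero_of_row_eq hne ?_
        rw [updateRow_self, updateRow_ne hne]
      rw [det_succ_row _ (Fin.last r)] at hdet
      rw [← hdet]
      refine sum_congr rfl fun j _ => ?_
      rw [submatrix_updateRow_succAbove, updateRow_self]
      rfl
    -- the restricted flag
    have hU' : ∀ (k : Fin r) (c : Fin g → Om) (M : ℝ), (∀ a, abv (c a) ≤ M) →
        (∀ k', k' < k → ∑ a, c a * (ev ∘ Fin.castSucc) k' a = 0) →
          abv (∑ a, c a * (ev ∘ Fin.castSucc) k a) ≤ C * M * (W ∘ Fin.castSucc) k := by
      intro k c M hM hz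
      refine hU (Fin.castSucc k) c M hM fun k' hk' => ?_
      have hlt : k' < Fin.last r := lt_of_lt_of_le hk' (Fin.le_last _)
      have : k' = Fin.castSucc (k'.castPred hlt.ne) := (Fin.castSucc_castPred k' hlt.ne).symm
      rw [this]
      refine hz _ ?_
      rw [← Fin.castSucc_lt_castSucc_iff, Fin.castSucc_castPred]
      exact hk'
    set B : ℝ := C ^ r * ∏ k : Fin r, W (Fin.castSucc k) with hB
    have hB0 : 0 ≤ B := mul_nonneg (pow_nonneg hC _) (prod_nonneg fun k _ => hW _)
    have hminor_le : ∀ j, abv (minor j) ≤ B := by
      intro j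
      have hsub : A.submatrix (Fin.last r).succAbove j.succAbove
          = Matrix.of fun k i => (ev ∘ Fin.castSucc) k ((a ∘ j.succAbove) i) := by
        ext i k
        simp [hA, Fin.succAbove_last]
      rw [hminor]
      simp only [hsub]
      exact ih (ev ∘ Fin.castSucc) (W ∘ Fin.castSucc) (fun k => hW _) hU' (a ∘ j.succAbove)
        (ha.comp Fin.succAbove_right_injective)
    have hc_le : ∀ α, abv (c α) ≤ B := by
      intro α
      by_cases hα : ∃ j₀, a j₀ = α
      · obtain ⟨j₀, hj₀⟩ := hα
        have : c α = sgn j₀ * minor j₀ := by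
          rw [hc]
          simp only
          rw [sum_eq_single j₀]
          · rw [if_pos hj₀]
          · intro j _ hj
            rw [if_neg]
            intro h
            exact hj (ha (h.trans hj₀.symm))
          · intro h
            exact absurd (mem_univ _) h
        rw [this, map_mul, hsgn]
        simp only [map_pow, AbsoluteValue.map_neg, AbsoluteValue.map_one, one_pow, one_mul]
        exact hminor_le j₀
      · have : c α = 0 := by
          rw [hc]
          simp only
          refine sum_eq_zero fun j _ => ?_
          rw [if_neg]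
          intro h
          exact hα ⟨j, h⟩
        rw [this, map_zero]
        exact hB0
    have key := hU (Fin.last r) c B hc_le hvanish
    rw [hlast] at key
    refine key.trans (le_of_eq ?_)
    rw [hB, Fin.prod_univ_castSucc]
    ring

end Flag

end Fermat.Agent.S17.Abs.LaplaceDet
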