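/-
PROJECT H (S17), slice (helper4): the CONFLUENT local determinant bound (B.10 = H0.16 + H0.17),
concrete form on top of the triangular Laplace induction `LaplaceDet.abv_det_le_of_flag`.

One field `Om` with one absolute value `abv`; `X` the points; `ev P j a` the `j`-th Hasse
coefficient at `P` of the `a`-th basis form; `w P` the local weight, `th P` the tangent weight,
`d P R` the local chordal distance.

A CONDITION LIST is any `pt : Fin r → X` (repetitions = multiplicities, in any order).  The `k`-th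
condition is `F ↦ F^[mult pt k](pt k)`, where `mult pt k` counts the earlier occurrences of `pt k`.
Hypothesis `UpperHypConf` (on a set `U` of admissible points) is the upper half of the local
two-sided lemma `(A*)` in consumer form.
Conclusions: the determinant bound in list form (`abv_det_le_of_conf`), the bijection between
conditions and pairs `(P, j)`, `j < D P` (`condEquiv`, and `exists_perm_of_equiv` for the Galois
argument of B.11), and the multiplicity form of the bound with the exponents of B.10.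

Mathlib + `Abs/LaplaceDet` only.
-/
import Mathlib
import Fermat.Agent.S17.Abs.LaplaceDet

set_option autoImplicit false

namespace Fermat.Agent.S17.Abs.ConfluentDet

open Finset

/-! ### condition lists -/

section CondLists

variable {X : Type*} [DecidableEq X] {r : ℕ}

/-- the Hasse order of the `k`-th condition: the number of earlier conditions at the same point -/
def mult (pt : Fin r → X) (k : Fin r) : ℕ :=
  (univ.filter fun k' : Fin r => k' < k ∧ pt k' = pt k).card

/-- the divisor of the conditions before the `k`-th one -/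
noncomputable def prevDiv (pt : Fin r → X) (k : Fin r) : X →₀ ℕ :=
  ∑ k' ∈ univ.filter (fun k' : Fin r => k' < k), Finsupp.single (pt k') 1

/-- the divisor of all conditions -/
noncomputable def totDiv (pt : Fin r → X) : X →₀ ℕ := ∑ k, Finsupp.single (pt k) 1

theorem prevDiv_apply (pt : Fin r → X) (k : Fin r) (R : X) :
    prevDiv pt k R = (univ.filter fun k' : Fin r => k' < k ∧ pt k' = R).card := by
  unfold prevDiv
  rw [Finsupp.finsetSum_apply]
  simp only [Finsupp.single_apply]
  rw [Finset.sum_boole, Finset.filter_filter]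
  simp

theorem prevDiv_self (pt : Fin r → X) (k : Fin r) : prevDiv pt k (pt k) = mult pt k :=
  prevDiv_apply pt k (pt k)

theorem totDiv_apply (pt : Fin r → X) (R : X) :
    totDiv pt R = (univ.filter fun k : Fin r => pt k = R).card := by
  unfold totDiv
  rw [Finsupp.finsetSum_apply]
  simp only [Finsupp.single_apply]
  rw [Finset.sum_boole]
  simp

theorem mem_support_totDiv (pt : Fin r → X) (k : Fin r) : pt k ∈ (totDiv pt).support := by
  rw [Finsupp.mem_support_iff, totDiv_apply]
  exact (Finset.card_pos.mpr ⟨k, by simp⟩).ne'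

theorem mem_support_totDiv_iff (pt : Fin r → X) (R : X) :
    R ∈ (totDiv pt).support ↔ ∃ k, pt k = R := by
  rw [Finsupp.mem_support_iff, totDiv_apply, ← Nat.pos_iff_ne_zero, Finset.card_pos]
  constructor
  · rintro ⟨k, hk⟩
    exact ⟨k, (Finset.mem_filter.mp hk).2⟩
  · rintro ⟨k, hk⟩
    exact ⟨k, by simp [hk]⟩

/-- later conditions at the same point have larger Hasse order -/
theorem mult_lt_mult (pt : Fin r → X) {k₁ k₂ : Fin r} (h : k₁ < k₂) (hpt : pt k₁ = pt k₂) :
    mult pt k₁ < mult pt k₂ := by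
  unfold mult
  refine Finset.card_lt_card ?_
  rw [Finset.ssubset_iff_of_subset]
  · refine ⟨k₁, ?_, ?_⟩
    · simp [h, hpt]
    · simp
  · intro k' hk'
    simp only [Finset.mem_filter, Finset.mem_univ, true_and] at hk' ⊢
    exact ⟨hk'.1.trans h, hk'.2.trans hpt⟩

theorem mult_lt_prevDiv (pt : Fin r → X) {k' k : Fin r} (h : k' < k) :
    mult pt k' < prevDiv pt k (pt k') := by
  rw [prevDiv_apply]
  unfold mult
  refine Finset.card_lt_card ?_
  rw [Finset.ssubset_iff_of_subset]
  · refine ⟨k', ?_, ?_⟩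
    · simp [h]
    · simp
  · intro k'' hk''
    simp only [Finset.mem_filter, Finset.mem_univ, true_and] at hk'' ⊢
    exact ⟨hk''.1.trans h, hk''.2⟩

theorem mult_lt_totDiv (pt : Fin r → X) (k : Fin r) : mult pt k < totDiv pt (pt k) := by
  rw [totDiv_apply]
  unfold mult
  refine Finset.card_lt_card ?_
  rw [Finset.ssubset_iff_of_subset]
  · refine ⟨k, ?_, ?_⟩
    · simp
    · simp
  · intro k'' hk''
    simp only [Finset.mem_filter, Finset.mem_univ, true_and] at hk'' ⊢
    exact hk''.2

/-- the map `k ↦ (pt k, mult pt k)` is injective -/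
theorem cond_injective (pt : Fin r → X) {k₁ k₂ : Fin r} (hpt : pt k₁ = pt k₂)
    (hm : mult pt k₁ = mult pt k₂) : k₁ = k₂ := by
  rcases lt_trichotomy k₁ k₂ with h | h | h
  · exact absurd hm (mult_lt_mult pt h hpt).ne
  · exact h
  · exact absurd hm.symm (mult_lt_mult pt h hpt.symm).ne

/-- every Hasse order below the multiplicity occurs, among any down-closed set of conditions -/
theorem exists_cond_of_lt (pt : Fin r → X) (S : Finset (Fin r)) (R : X)
    (hS : ∀ k ∈ S, pt k = R) (hdown : ∀ k ∈ S, ∀ k' : Fin r, k' < k → pt k' = R → k' ∈ S)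
    (j : ℕ) (hj : j < S.card) : ∃ k ∈ S, mult pt k = j := by
  have hmem : ∀ k ∈ S, mult pt k ∈ Finset.range S.card := by
    intro k hk
    rw [Finset.mem_range]
    unfold mult
    refine Finset.card_lt_card ?_
    rw [Finset.ssubset_iff_of_subset]
    · exact ⟨k, hk, by simp⟩
    · intro k' hk'
      simp only [Finset.mem_filter, Finset.mem_univ, true_and] at hk'
      exact hdown k hk k' hk'.1 (hk'.2.trans (hS k hk))
  have := Finset.surj_on_of_inj_on_of_card_le (s := S) (t := Finset.range S.card)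
    (fun k _ => mult pt k) hmem
    (fun k₁ k₂ h₁ h₂ h => cond_injective pt ((hS k₁ h₁).trans (hS k₂ h₂).symm) h)
    (by rw [Finset.card_range]) j (Finset.mem_range.mpr hj)
  obtain ⟨k, hk, hkj⟩ := this
  exact ⟨k, hk, hkj.symm⟩

theorem exists_cond_prev (pt : Fin r → X) (k : Fin r) (R : X) (j : ℕ)
    (hj : j < prevDiv pt k R) : ∃ k', k' < k ∧ pt k' = R ∧ mult pt k' = j := by
  rw [prevDiv_apply] at hj
  obtain ⟨k', hk', hm⟩ := exists_cond_of_lt pt _ R
    (fun k' hk' => (Finset.mem_filter.mp hk').2.2)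
    (fun k₁ hk₁ k₂ hlt hR => by
      simp only [Finset.mem_filter, Finset.mem_univ, true_and] at hk₁ ⊢
      exact ⟨hlt.trans hk₁.1, hR⟩) j hj
  simp only [Finset.mem_filter, Finset.mem_univ, true_and] at hk'
  exact ⟨k', hk'.1, hk'.2, hm⟩

theorem exists_cond_tot (pt : Fin r → X) (R : X) (j : ℕ) (hj : j < totDiv pt R) :
    ∃ k, pt k = R ∧ mult pt k = j := by
  rw [totDiv_apply] at hj
  obtain ⟨k', hk', hm⟩ := exists_cond_of_lt pt _ R
    (fun k' hk' => (Finset.mem_filter.mp hk').2)
    (fun k₁ _ k₂ _ hR => by simp [hR]) j hj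
  simp only [Finset.mem_filter, Finset.mem_univ, true_and] at hk'
  exact ⟨k', hk', hm⟩

/-- **conditions = pairs `(P, j)` with `j < D P`** -/
noncomputable def condEquiv (pt : Fin r → X) :
    Fin r ≃ {c : X × ℕ // c.2 < totDiv pt c.1} :=
  Equiv.ofBijective (fun k => ⟨(pt k, mult pt k), mult_lt_totDiv pt k⟩)
    ⟨fun k₁ k₂ h => by
      have h' := congrArg Subtype.val h
      simp only [Prod.mk.injEq] at h'
      exact cond_injective pt h'.1 h'.2,
     fun c => by
      obtain ⟨k, hk, hm⟩ := exists_cond_tot pt c.1.1 c.1.2 c.2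
      refine ⟨k, Subtype.ext ?_⟩
      simp only
      rw [hk, hm]⟩

@[simp]
theorem condEquiv_apply_fst (pt : Fin r → X) (k : Fin r) : (condEquiv pt k).1.1 = pt k := rfl

@[simp]
theorem condEquiv_apply_snd (pt : Fin r → X) (k : Fin r) : (condEquiv pt k).1.2 = mult pt k := rfl

/-- a bijection of the points preserving the multiplicities permutes the conditions (this is what
makes `τ(Δ_σ) = ± Δ_{τσ}` in B.11) -/
theorem exists_perm_of_equiv (pt : Fin r → X) (φ : X ≃ X)
    (hφ : ∀ P, totDiv pt (φ P) = totDiv pt P) :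
    ∃ π : Equiv.Perm (Fin r), ∀ k, pt (π k) = φ (pt k) ∧ mult pt (π k) = mult pt k := by
  have hφ' : ∀ P, totDiv pt (φ.symm P) = totDiv pt P := fun P => by
    have := hφ (φ.symm P)
    rw [Equiv.apply_symm_apply] at this
    exact this.symm
  let ψ : {c : X × ℕ // c.2 < totDiv pt c.1} ≃ {c : X × ℕ // c.2 < totDiv pt c.1} :=
    { toFun := fun c => ⟨(φ c.1.1, c.1.2), by simpa [hφ] using c.2⟩
      invFun := fun c => ⟨(φ.symm c.1.1, c.1.2), by simpa [hφ'] using c.2⟩
      left_inv := fun c => by simp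
      right_inv := fun c => by simp }
  refine ⟨(condEquiv pt).trans (ψ.trans (condEquiv pt).symm), fun k => ?_⟩
  have h : condEquiv pt (((condEquiv pt).trans (ψ.trans (condEquiv pt).symm)) k)
      = ψ (condEquiv pt k) := by simp
  have h1 := congrArg (fun c => c.1.1) h
  have h2 := congrArg (fun c => c.1.2) h
  simp only [condEquiv_apply_fst, condEquiv_apply_snd] at h1 h2
  exact ⟨h1, h2⟩

/-- reindexing a product over the conditions -/
theorem prod_cond {M : Type*} [CommMonoid M] (pt : Fin r → X) (f : X → ℕ → M) :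
    ∏ k, f (pt k) (mult pt k) =
      ∏ P ∈ (totDiv pt).support, ∏ j ∈ Finset.range (totDiv pt P), f P j := by
  rw [Finset.prod_sigma' (totDiv pt).support (fun P => Finset.range (totDiv pt P))
    (fun P j => f P j)]
  refine Finset.prod_bij (fun k _ => ⟨pt k, mult pt k⟩) ?_ ?_ ?_ ?_
  · intro k _
    rw [Finset.mem_sigma]
    exact ⟨mem_support_totDiv pt k, Finset.mem_range.mpr (mult_lt_totDiv pt k)⟩
  · intro k₁ _ k₂ _ h
    rw [Sigma.mk.injEq] at h
    exact cond_injective pt h.1 (eq_of_heq h.2)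
  · intro c hc
    rw [Finset.mem_sigma, Finset.mem_range] at hc
    obtain ⟨k, hk, hm⟩ := exists_cond_tot pt c.1 c.2 hc.2
    refine ⟨k, Finset.mem_univ _, ?_⟩
    rw [hk, hm]
  · intro k _
    rfl

/-- a product of a function of the point over the conditions -/
theorem prod_comp_pt {M : Type*} [CommMonoid M] (pt : Fin r → X) (h : X → M) :
    ∏ k, h (pt k) = ∏ P ∈ (totDiv pt).support, h P ^ totDiv pt P := by
  have := prod_cond pt (fun P _ => h P)
  simp only [Finset.prod_const, Finset.card_range] at this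
  exact this

/-- the product over the earlier points, with multiplicity, as a product over the earlier
conditions -/
theorem prod_erase_eq_prod_ite {M : Type*} [CommMonoid M] (pt : Fin r → X) (k : Fin r)
    (h : X → M) :
    ∏ R ∈ (prevDiv pt k).support.erase (pt k), h R ^ prevDiv pt k R =
      ∏ k', if k' < k ∧ pt k' ≠ pt k then h (pt k') else 1 := by
  rw [← Finset.prod_filter]
  have hmaps : ∀ k' ∈ univ.filter (fun k' : Fin r => k' < k ∧ pt k' ≠ pt k),
      pt k' ∈ (prevDiv pt k).support.erase (pt k) := by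
    intro k' hk'
    simp only [Finset.mem_filter, Finset.mem_univ, true_and] at hk'
    rw [Finset.mem_erase, Finsupp.mem_support_iff, prevDiv_apply]
    exact ⟨hk'.2, (Finset.card_pos.mpr ⟨k', by simp [hk'.1]⟩).ne'⟩
  rw [← Finset.prod_fiberwise_of_maps_to hmaps]
  refine Finset.prod_congr rfl fun R hR => ?_
  have hRne : R ≠ pt k := (Finset.mem_erase.mp hR).1
  have h1 : ∀ k' ∈ (univ.filter (fun k' : Fin r => k' < k ∧ pt k' ≠ pt k)).filter
      (fun k' => pt k' = R), h (pt k') = h R := fun k' hk' => by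
    rw [(Finset.mem_filter.mp hk').2]
  rw [Finset.prod_congr rfl h1, Finset.prod_const, prevDiv_apply]
  congr 2
  ext k'
  simp only [Finset.mem_filter, Finset.mem_univ, true_and]
  constructor
  · rintro ⟨hlt, hR'⟩
    exact ⟨⟨hlt, by rw [hR']; exact hRne⟩, hR'⟩
  · rintro ⟨⟨hlt, _⟩, hR'⟩
    exact ⟨hlt, hR'⟩

/-- the tangent exponents: `∑_{j < m} j = m (m - 1) / 2` -/
theorem prod_pow_mult (pt : Fin r → X) (th : X → ℝ) :
    ∏ k, th (pt k) ^ mult pt k =
      ∏ P ∈ (totDiv pt).support, th P ^ (totDiv pt P).choose 2 := by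
  rw [prod_cond pt (fun P j => th P ^ j)]
  refine Finset.prod_congr rfl fun P _ => ?_
  rw [Finset.prod_pow_eq_pow_sum, Finset.sum_range_id, Nat.choose_two_right]

/-- the distance exponents: the square of the triangular product is the full off-diagonal
product -/
theorem sq_prod_ite (pt : Fin r → X) (d : X → X → ℝ) (hsymm : ∀ P R, d P R = d R P) :
    (∏ k, ∏ k', if k' < k ∧ pt k' ≠ pt k then d (pt k) (pt k') else 1) ^ 2 =
      ∏ P ∈ (totDiv pt).support, ∏ R ∈ (totDiv pt).support.erase P,
        d P R ^ (totDiv pt P * totDiv pt R) := by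
  have hswap : (∏ k, ∏ k', if k' < k ∧ pt k' ≠ pt k then d (pt k) (pt k') else 1) =
      ∏ k, ∏ k', if k < k' ∧ pt k' ≠ pt k then d (pt k) (pt k') else 1 := by
    rw [Finset.prod_comm]
    refine Finset.prod_congr rfl fun k _ => Finset.prod_congr rfl fun k' _ => ?_
    by_cases h : k < k' ∧ pt k' ≠ pt k
    · rw [if_pos h, if_pos ⟨h.1, h.2.symm⟩, hsymm]
    · rw [if_neg h, if_neg fun h' => h ⟨h'.1, h'.2.symm⟩]
  have hfull : (∏ k, ∏ k', if k' < k ∧ pt k' ≠ pt k then d (pt k) (pt k') else 1) ^ 2 =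
      ∏ k, ∏ k', if pt k' ≠ pt k then d (pt k) (pt k') else 1 := by
    rw [sq]
    nth_rewrite 2 [hswap]
    rw [← Finset.prod_mul_distrib]
    refine Finset.prod_congr rfl fun k _ => ?_
    rw [← Finset.prod_mul_distrib]
    refine Finset.prod_congr rfl fun k' _ => ?_
    by_cases hne : pt k' ≠ pt k
    · rw [if_pos hne]
      rcases lt_trichotomy k' k with h | h | h
      · rw [if_pos ⟨h, hne⟩, if_neg fun h' => (lt_asymm h h'.1), mul_one]
      · exact absurd (by rw [h]) hne
      · rw [if_neg fun h' => (lt_asymm h h'.1), if_pos ⟨h, hne⟩, one_mul]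
    · rw [if_neg hne, if_neg fun h' => hne h'.2, if_neg fun h' => hne h'.2, mul_one]
  rw [hfull]
  have hG : ∀ P : X, (∏ k', if pt k' ≠ P then d P (pt k') else 1) =
      ∏ R ∈ (totDiv pt).support.erase P, d P R ^ totDiv pt R := by
    intro P
    rw [prod_comp_pt pt (fun R => if R ≠ P then d P R else 1),
      ← Finset.prod_erase (totDiv pt).support (a := P) (by simp)]
    refine Finset.prod_congr rfl fun R hR => ?_
    rw [if_pos (Finset.mem_erase.mp hR).1]
  rw [prod_comp_pt pt (fun P => ∏ k', if pt k' ≠ P then d P (pt k') else 1)]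
  refine Finset.prod_congr rfl fun P _ => ?_
  rw [hG P, ← Finset.prod_pow]
  refine Finset.prod_congr rfl fun R _ => ?_
  rw [← pow_mul, mul_comm]

/-- the confluent determinant of a condition list is, up to sign, invariant under a bijection of
the points which preserves the multiplicities -/
theorem det_map_equiv {A : Type*} [CommRing A] {g : ℕ} (ev : X → ℕ → Fin g → A)
    (pt : Fin r → X) (φ : X ≃ X) (hφ : ∀ P, totDiv pt (φ P) = totDiv pt P)
    (a : Fin r → Fin g) :
    ∃ π : Equiv.Perm (Fin r),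
      (Matrix.of fun k l => ev (φ (pt k)) (mult pt k) (a l)).det =
        ((Equiv.Perm.sign π : ℤ) : A) * (Matrix.of fun k l => ev (pt k) (mult pt k) (a l)).det := by
  obtain ⟨π, hπ⟩ := exists_perm_of_equiv pt φ hφ
  refine ⟨π, ?_⟩
  rw [← Matrix.det_permute]
  congr 1
  ext k l
  simp only [Matrix.of_apply, Matrix.submatrix_apply, id_eq]
  rw [(hπ k).1, (hπ k).2]

theorem sq_det_map_equiv {A : Type*} [CommRing A] {g : ℕ} (ev : X → ℕ → Fin g → A)
    (pt : Fin r → X) (φ : X ≃ X) (hφ : ∀ P, totDiv pt (φ P) = totDiv pt P)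
    (a : Fin r → Fin g) :
    (Matrix.of fun k l => ev (φ (pt k)) (mult pt k) (a l)).det ^ 2 =
      (Matrix.of fun k l => ev (pt k) (mult pt k) (a l)).det ^ 2 := by
  obtain ⟨π, hπ⟩ := det_map_equiv ev pt φ hφ a
  rw [hπ, mul_pow]
  rcases Int.units_eq_one_or (Equiv.Perm.sign π) with h | h <;> simp [h]

omit [DecidableEq X] in
/-- every effective divisor is the divisor of a condition list -/
theorem exists_pt_totDiv (D : X →₀ ℕ) :
    ∃ (r : ℕ) (pt : Fin r → X), totDiv pt = D ∧ r = D.sum fun _ n => n := by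
  induction D using Finsupp.induction_linear with
  | zero => exact ⟨0, Fin.elim0, by simp [totDiv], by simp⟩
  | add D₁ D₂ h₁ h₂ =>
    obtain ⟨r₁, pt₁, hD₁, hr₁⟩ := h₁
    obtain ⟨r₂, pt₂, hD₂, hr₂⟩ := h₂
    refine ⟨r₁ + r₂, Fin.append pt₁ pt₂, ?_, ?_⟩
    · unfold totDiv at hD₁ hD₂ ⊢
      rw [Fin.sum_univ_add]
      simp only [Fin.append_left, Fin.append_right]
      rw [hD₁, hD₂]
    · rw [Finsupp.sum_add_index' (fun _ => rfl) (fun _ _ _ => rfl), ← hr₁, ← hr₂]
  | single P n =>
    refine ⟨n, fun _ => P, ?_, ?_⟩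
    · unfold totDiv
      rw [Finset.sum_const, Finset.card_univ, Fintype.card_fin, Finsupp.smul_single, smul_eq_mul,
        mul_one]
    · rw [Finsupp.sum_single_index rfl]

end CondLists

/-! ### the determinant bound -/

section Bound

variable {Om : Type*} [Field Om] (abv : AbsoluteValue Om ℝ) {X : Type*} [DecidableEq X] {g : ℕ}
  (ev : X → ℕ → Fin g → Om) (w th : X → ℝ) (d : X → X → ℝ) (C : ℝ) (U : Set X)

/-- hypothesis `(U)`, confluent form, on a set `U` of admissible points (the points off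
`supp (E + B)` and off `∞`): `Dp` is the divisor of the conditions already imposed on the
combination `F* = ∑ c_a F_a`; the next condition at `P` has Hasse order `Dp P`.  This is the upper
half of `(A*)` for `F*`, whose zero divisor dominates `E + B + Dp`. -/
def UpperHypConf : Prop :=
  ∀ (Dp : X →₀ ℕ), (∀ R ∈ Dp.support, R ∈ U) → ∀ (c : Fin g → Om) (M : ℝ),
    (∀ a, abv (c a) ≤ M) → (∀ R, ∀ j < Dp R, ∑ a, c a * ev R j a = 0) → ∀ P ∈ U,
      abv (∑ a, c a * ev P (Dp P) a) ≤
        C * M * w P * th P ^ Dp P * ∏ R ∈ Dp.support.erase P, d P R ^ Dp R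

/-- the same hypothesis with the other points listed as an injective family with multiplicities
(the literal shape of the H0 text) -/
def UpperHypConfList : Prop :=
  ∀ (k : ℕ) (R : Fin k → X), Function.Injective R → (∀ i, R i ∈ U) →
    ∀ (mu : Fin k → ℕ) (c : Fin g → Om) (M : ℝ),
    (∀ a, abv (c a) ≤ M) → (∀ i, ∀ j < mu i, ∑ a, c a * ev (R i) j a = 0) →
    ∀ (P : X) (j0 : ℕ), P ∈ U → (∀ i, R i ≠ P) → (∀ j < j0, ∑ a, c a * ev P j a = 0) →
      abv (∑ a, c a * ev P j0 a) ≤ C * M * w P * th P ^ j0 * ∏ i, d P (R i) ^ mu i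

variable {abv ev w th d C U}

theorem upperHypConf_of_list (h : UpperHypConfList abv ev w th d C U) :
    UpperHypConf abv ev w th d C U := by
  intro Dp hDp c M hM hz P hP
  set S : Finset X := Dp.support.erase P with hS
  let e : Fin S.card ≃ S := S.equivFin.symm
  have key := h S.card (fun i => (e i : X))
    (fun i j hij => e.injective (Subtype.ext hij))
    (fun i => hDp _ (Finset.mem_of_mem_erase (e i).2)) (fun i => Dp (e i : X)) c M hM
    (fun i j hj => hz _ j hj) P (Dp P) hP
    (fun i => (Finset.mem_erase.mp (e i).2).1) (fun j hj => hz P j hj)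
  have hprod : ∏ i, d P (e i : X) ^ Dp (e i : X) = ∏ R ∈ S, d P R ^ Dp R := by
    rw [← Finset.prod_coe_sort S (fun R => d P R ^ Dp R)]
    exact Equiv.prod_comp e (fun R : S => d P (R : X) ^ Dp (R : X))
  rw [hprod] at key
  exact key

variable (abv ev w th d C)

/-- the weight of the `k`-th condition -/
noncomputable def condWeight {r : ℕ} (pt : Fin r → X) (k : Fin r) : ℝ :=
  w (pt k) * th (pt k) ^ mult pt k *
    ∏ R ∈ (prevDiv pt k).support.erase (pt k), d (pt k) R ^ prevDiv pt k R

variable {w th d}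

theorem condWeight_nonneg (hw : ∀ P, 0 ≤ w P) (hth : ∀ P, 0 ≤ th P) (hd : ∀ P R, 0 ≤ d P R)
    {r : ℕ} (pt : Fin r → X) (k : Fin r) : 0 ≤ condWeight w th d pt k :=
  mul_nonneg (mul_nonneg (hw _) (pow_nonneg (hth _) _))
    (Finset.prod_nonneg fun _ _ => pow_nonneg (hd _ _) _)

variable {C}

/-- **B.10, list form.**  For ANY list of conditions (repeated points allowed, any order) and any
choice of `r` distinct basis forms. -/
theorem abv_det_le_of_conf (hC : 0 ≤ C) (hw : ∀ P, 0 ≤ w P) (hth : ∀ P, 0 ≤ th P)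
    (hd : ∀ P R, 0 ≤ d P R) (hU : UpperHypConf abv ev w th d C U) {r : ℕ} (pt : Fin r → X)
    (hpt : ∀ k, pt k ∈ U) (a : Fin r → Fin g) (ha : Function.Injective a) :
    abv (Matrix.of fun k l => ev (pt k) (mult pt k) (a l)).det ≤
      C ^ r * ∏ k, condWeight w th d pt k := by
  refine LaplaceDet.abv_det_le_of_flag abv C hC r (fun k => ev (pt k) (mult pt k))
    (fun k => condWeight w th d pt k) (fun k => condWeight_nonneg hw hth hd pt k) ?_ a ha
  intro k c M hM hz
  have hsupp : ∀ R ∈ (prevDiv pt k).support, R ∈ U := by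
    intro R hR
    rw [Finsupp.mem_support_iff, prevDiv_apply, ← Nat.pos_iff_ne_zero, Finset.card_pos] at hR
    obtain ⟨k', hk'⟩ := hR
    rw [← (Finset.mem_filter.mp hk').2.2]
    exact hpt k'
  have key := hU (prevDiv pt k) hsupp c M hM ?_ (pt k) (hpt k)
  · rw [prevDiv_self] at key
    refine key.trans (le_of_eq ?_)
    unfold condWeight
    ring
  · intro R j hj
    obtain ⟨k', hk', hR, hm⟩ := exists_cond_prev pt k R j hj
    rw [← hR, ← hm]
    exact hz k' hk'

/-- **B.10, index form**: the weights written as products over the earlier conditions. -/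
theorem abv_det_le_of_conf' (hC : 0 ≤ C) (hw : ∀ P, 0 ≤ w P) (hth : ∀ P, 0 ≤ th P)
    (hd : ∀ P R, 0 ≤ d P R) (hU : UpperHypConf abv ev w th d C U) {r : ℕ} (pt : Fin r → X)
    (hpt : ∀ k, pt k ∈ U) (a : Fin r → Fin g) (ha : Function.Injective a) :
    abv (Matrix.of fun k l => ev (pt k) (mult pt k) (a l)).det ≤
      C ^ r * (∏ k, w (pt k)) * (∏ k, th (pt k) ^ mult pt k) *
        ∏ k, ∏ k', if k' < k ∧ pt k' ≠ pt k then d (pt k) (pt k') else 1 := by
  refine (abv_det_le_of_conf abv ev hC hw hth hd hU pt hpt a ha).trans (le_of_eq ?_)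
  unfold condWeight
  rw [Finset.prod_mul_distrib, Finset.prod_mul_distrib]
  simp only [prod_erase_eq_prod_ite]
  ring

/-- **B.10, multiplicity form** (`D = ∑_k (pt k)` the divisor of the conditions, `d` symmetric):
the exponents are `D P` for the weight, `D P (D P - 1)/2` for the tangent weight and
`D P * D R` for each unordered pair of distinct points. -/
theorem sq_abv_det_le (hC : 0 ≤ C) (hw : ∀ P, 0 ≤ w P) (hth : ∀ P, 0 ≤ th P)
    (hd : ∀ P R, 0 ≤ d P R) (hsymm : ∀ P R, d P R = d R P)
    (hU : UpperHypConf abv ev w th d C U) {r : ℕ} (pt : Fin r → X)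
    (hpt : ∀ k, pt k ∈ U) (a : Fin r → Fin g) (ha : Function.Injective a) :
    abv (Matrix.of fun k l => ev (pt k) (mult pt k) (a l)).det ^ 2 ≤
      (C ^ r * ∏ P ∈ (totDiv pt).support,
        (w P ^ totDiv pt P * th P ^ (totDiv pt P).choose 2)) ^ 2 *
        ∏ P ∈ (totDiv pt).support, ∏ R ∈ (totDiv pt).support.erase P,
          d P R ^ (totDiv pt P * totDiv pt R) := by
  have h := abv_det_le_of_conf' abv ev hC hw hth hd hU pt hpt a ha
  have h2 := pow_le_pow_left₀ (abv.nonneg _) h 2
  refine h2.trans (le_of_eq ?_)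
  rw [← sq_prod_ite pt d hsymm, Finset.prod_mul_distrib, ← prod_comp_pt pt w,
    ← prod_pow_mult pt th]
  ring

/-- **B.10, logarithmic form** (the local input of B.11); positivity is only needed on the
support of the divisor of the conditions. -/
theorem log_abv_det_le (hC : 0 < C) (hw0 : ∀ P, 0 ≤ w P) (hth0 : ∀ P, 0 ≤ th P)
    (hd : ∀ P R, 0 ≤ d P R) (hsymm : ∀ P R, d P R = d R P)
    (hU : UpperHypConf abv ev w th d C U) {r : ℕ} (pt : Fin r → X)
    (hpt : ∀ k, pt k ∈ U) (hw : ∀ P ∈ (totDiv pt).support, 0 < w P)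
    (hth : ∀ P ∈ (totDiv pt).support, 0 < th P)
    (hd' : ∀ P ∈ (totDiv pt).support, ∀ R ∈ (totDiv pt).support, P ≠ R → 0 < d P R)
    (a : Fin r → Fin g) (ha : Function.Injective a)
    (hdet : (Matrix.of fun k l => ev (pt k) (mult pt k) (a l)).det ≠ 0) :
    Real.log (abv (Matrix.of fun k l => ev (pt k) (mult pt k) (a l)).det) ≤
      r * Real.log C + ∑ P ∈ (totDiv pt).support, (totDiv pt P : ℝ) * Real.log (w P)
        + ∑ P ∈ (totDiv pt).support, ((totDiv pt P).choose 2 : ℝ) * Real.log (th P)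
        + (1 / 2) * ∑ P ∈ (totDiv pt).support, ∑ R ∈ (totDiv pt).support.erase P,
            ((totDiv pt P : ℝ) * (totDiv pt R : ℝ)) * Real.log (d P R) := by
  have h := sq_abv_det_le abv ev hC.le hw0 hth0 hd hsymm hU pt hpt a ha
  have hpos : 0 < abv (Matrix.of fun k l => ev (pt k) (mult pt k) (a l)).det := abv.pos hdet
  have hlog := Real.log_le_log (pow_pos hpos 2) h
  have hd'' : ∀ P ∈ (totDiv pt).support, ∀ R ∈ (totDiv pt).support.erase P,
      d P R ^ (totDiv pt P * totDiv pt R) ≠ 0 := fun P hP R hR =>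
    pow_ne_zero _ (hd' P hP R (Finset.mem_of_mem_erase hR) (Finset.mem_erase.mp hR).1.symm).ne'
  have hwt : ∀ P ∈ (totDiv pt).support,
      w P ^ totDiv pt P * th P ^ (totDiv pt P).choose 2 ≠ 0 := fun P hP =>
    mul_ne_zero (pow_ne_zero _ (hw P hP).ne') (pow_ne_zero _ (hth P hP).ne')
  have hA : (C ^ r * ∏ P ∈ (totDiv pt).support,
      (w P ^ totDiv pt P * th P ^ (totDiv pt P).choose 2)) ≠ 0 :=
    mul_ne_zero (pow_ne_zero _ hC.ne') (Finset.prod_ne_zero_iff.mpr hwt)
  have hB : (∏ P ∈ (totDiv pt).support, ∏ R ∈ (totDiv pt).support.erase P,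
      d P R ^ (totDiv pt P * totDiv pt R)) ≠ 0 :=
    Finset.prod_ne_zero_iff.mpr fun P hP => Finset.prod_ne_zero_iff.mpr (hd'' P hP)
  rw [Real.log_mul (pow_ne_zero _ hA) hB, Real.log_pow, Real.log_pow,
    Real.log_mul (pow_ne_zero _ hC.ne') (Finset.prod_ne_zero_iff.mpr hwt),
    Real.log_pow, Real.log_prod hwt,
    Real.log_prod (fun P hP => Finset.prod_ne_zero_iff.mpr (hd'' P hP))] at hlog
  have h1 : ∀ P ∈ (totDiv pt).support,
      Real.log (w P ^ totDiv pt P * th P ^ (totDiv pt P).choose 2) =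
        (totDiv pt P : ℝ) * Real.log (w P) + ((totDiv pt P).choose 2 : ℝ) * Real.log (th P) :=
    fun P hP => by
      rw [Real.log_mul (pow_ne_zero _ (hw P hP).ne') (pow_ne_zero _ (hth P hP).ne'),
        Real.log_pow, Real.log_pow]
  have h2 : ∀ P ∈ (totDiv pt).support,
      Real.log (∏ R ∈ (totDiv pt).support.erase P, d P R ^ (totDiv pt P * totDiv pt R)) =
        ∑ R ∈ (totDiv pt).support.erase P,
          ((totDiv pt P : ℝ) * (totDiv pt R : ℝ)) * Real.log (d P R) := fun P hP => by
    rw [Real.log_prod (hd'' P hP)]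
    refine Finset.sum_congr rfl fun R _ => ?_
    rw [Real.log_pow, Nat.cast_mul]
  rw [Finset.sum_congr rfl h1, Finset.sum_congr rfl h2, Finset.sum_add_distrib] at hlog
  push_cast at hlog
  linarith

end Bound

end Fermat.Agent.S17.Abs.ConfluentDet
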