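import Mathlib

/-!
# PROJECT H (S17), slice (U-a): Galois descent linear algebra (Mathlib only)

`K` a field, `L / K` an algebraic Galois extension (infinite allowed), `G := L ≃ₐ[K] L` acting
coefficientwise on `ι → L` (`ι` finite).

* `fixed_iff_mem_range`  (GD0) : `a` is fixed by all of `G` iff `a` comes from `K`;
* `exists_rational_of_stable_line` (GD1) : a `G`-stable line has a `K`-rational generator;
* `span_rational_eq` / `exists_rational_basis` (GD2) : a `G`-stable `L`-subspace of `ι → L` is
  spanned by its `K`-rational vectors and has a `K`-rational basis;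
* `ker_stable` / `exists_rational_basis_ker` (GD3) : the kernel of a matrix whose set of rows is
  `G`-stable up to a permutation has a `K`-rational basis;
* instance-free specialisation to `K = ℚ`, `L = AlgebraicClosure ℚ` at the end.
-/

set_option autoImplicit false

noncomputable section

namespace Fermat.Agent.S17.Abs.GaloisDescent

open Module

variable {K L : Type*} [Field K] [Field L] [Algebra K L]
variable {ι : Type*}

/-- coefficientwise Galois action on coordinate vectors -/
def conj (σ : L ≃ₐ[K] L) (v : ι → L) : ι → L := fun i => σ (v i)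

@[simp] theorem conj_apply (σ : L ≃ₐ[K] L) (v : ι → L) (i : ι) : conj σ v i = σ (v i) := rfl

theorem conj_add (σ : L ≃ₐ[K] L) (v w : ι → L) : conj σ (v + w) = conj σ v + conj σ w := by
  ext i; simp

theorem conj_sub (σ : L ≃ₐ[K] L) (v w : ι → L) : conj σ (v - w) = conj σ v - conj σ w := by
  ext i; simp

theorem conj_smul (σ : L ≃ₐ[K] L) (c : L) (v : ι → L) : conj σ (c • v) = σ c • conj σ v := by
  ext i; simp

theorem conj_zero (σ : L ≃ₐ[K] L) : conj σ (0 : ι → L) = 0 := by
  ext i; simp

/-- the `K`-rational vector attached to `w : ι → K` -/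
def rat (w : ι → K) : ι → L := fun i => algebraMap K L (w i)

@[simp] theorem rat_apply (w : ι → K) (i : ι) : rat (L := L) w i = algebraMap K L (w i) := rfl

theorem rat_eq_comp (w : ι → K) : rat (L := L) w = algebraMap K L ∘ w := rfl

theorem conj_rat (σ : L ≃ₐ[K] L) (w : ι → K) : conj σ (rat (L := L) w) = rat w := by
  ext i; simp

/-- the `K`-linear map `w ↦ rat w` -/
def ratLin : (ι → K) →ₗ[K] (ι → L) where
  toFun := rat
  map_add' v w := by ext i; simp
  map_smul' c v := by ext i; simp [Algebra.smul_def]

@[simp] theorem ratLin_apply (w : ι → K) : ratLin (L := L) w = rat w := rfl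

theorem rat_injective : Function.Injective (rat (K := K) (L := L) (ι := ι)) := by
  intro v w h
  ext i
  exact (algebraMap K L).injective (congrFun h i)

/-- **(GD0)** the fixed field of the full Galois group is `K`. -/
theorem fixed_iff_mem_range [IsGalois K L] (a : L) :
    (∀ σ : L ≃ₐ[K] L, σ a = a) ↔ a ∈ Set.range (algebraMap K L) :=
  (InfiniteGalois.mem_range_algebraMap_iff_fixed a).symm

/-- a coordinate vector fixed by `G` is `K`-rational -/
theorem exists_rat_of_fixed [IsGalois K L] {v : ι → L} (h : ∀ σ : L ≃ₐ[K] L, conj σ v = v) :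
    ∃ w : ι → K, v = rat w := by
  have h' : ∀ i, ∃ a : K, algebraMap K L a = v i := fun i =>
    (fixed_iff_mem_range (K := K) (v i)).mp fun σ => congrFun (h σ) i
  choose w hw using h'
  exact ⟨w, funext fun i => (hw i).symm⟩

/-- **(GD1)** a `G`-stable line has a `K`-rational generator. -/
theorem exists_rational_of_stable_line [IsGalois K L] {v : ι → L} (hv : v ≠ 0)
    (h : ∀ σ : L ≃ₐ[K] L, ∃ c : L, conj σ v = c • v) :
    ∃ (c : L) (w : ι → K), c ≠ 0 ∧ v = c • rat w := by
  obtain ⟨i0, hi0⟩ : ∃ i, v i ≠ 0 := by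
    by_contra hcon
    exact hv (funext fun i => by
      by_contra hi
      exact hcon ⟨i, hi⟩)
  have hfix : ∀ σ : L ≃ₐ[K] L, conj σ ((v i0)⁻¹ • v) = (v i0)⁻¹ • v := by
    intro σ
    obtain ⟨c, hc⟩ := h σ
    have hc0 : σ (v i0) = c * v i0 := by
      have := congrFun hc i0
      simpa using this
    rw [conj_smul, hc, map_inv₀, hc0, smul_smul]
    congr 1
    have hcne : c ≠ 0 := by
      intro h0
      rw [h0, zero_mul] at hc0
      exact hi0 ((map_eq_zero σ).mp hc0)
    field_simp
  obtain ⟨w, hw⟩ := exists_rat_of_fixed hfix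
  refine ⟨v i0, w, hi0, ?_⟩
  rw [← hw, smul_smul, mul_inv_cancel₀ hi0, one_smul]

section Subspace

variable [Fintype ι]

open Classical in
/-- support of a coordinate vector -/
def supp (v : ι → L) : Finset ι := Finset.univ.filter fun i => v i ≠ 0

@[simp] theorem mem_supp {v : ι → L} {i : ι} : i ∈ supp v ↔ v i ≠ 0 := by
  simp [supp]

theorem supp_eq_empty {v : ι → L} : supp v = ∅ ↔ v = 0 := by
  constructor
  · intro h
    ext i
    by_contra hi
    have : i ∈ supp v := mem_supp.mpr hi
    rw [h] at this
    exact (Finset.notMem_empty i) this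
  · rintro rfl
    ext i
    simp

/-- the `K`-subspace of rational vectors lying in `U` -/
def ratPart (U : Submodule L (ι → L)) : Submodule K (ι → K) :=
  (U.restrictScalars K).comap (ratLin (K := K) (L := L) (ι := ι))

omit [Fintype ι] in
theorem mem_ratPart {U : Submodule L (ι → L)} {w : ι → K} :
    w ∈ ratPart (K := K) U ↔ rat w ∈ U := Iff.rfl

/-- the `L`-span of the rational vectors of `U` -/
def ratSpan (U : Submodule L (ι → L)) : Submodule L (ι → L) :=
  Submodule.span L (rat '' (ratPart (K := K) U : Set (ι → K)))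

omit [Fintype ι] in
theorem ratSpan_le (U : Submodule L (ι → L)) : ratSpan (K := K) U ≤ U := by
  refine Submodule.span_le.mpr ?_
  rintro _ ⟨w, hw, rfl⟩
  exact hw

/-- key induction: every vector of a `G`-stable subspace lies in the span of its rational
vectors (minimal-support = "circuit" argument; no finite Galois theory needed). -/
theorem mem_ratSpan_of_stable [IsGalois K L] (U : Submodule L (ι → L))
    (hU : ∀ σ : L ≃ₐ[K] L, ∀ u ∈ U, conj σ u ∈ U) :
    ∀ n : ℕ, ∀ u ∈ U, (supp u).card ≤ n → u ∈ ratSpan (K := K) U := by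
  classical
  intro n
  induction n with
  | zero =>
    intro u _ hcard
    have : supp u = ∅ := Finset.card_eq_zero.mp (Nat.le_zero.mp hcard)
    rw [supp_eq_empty.mp this]
    exact Submodule.zero_mem _
  | succ n ih =>
    intro u hu hcard
    by_cases hu0 : u = 0
    · rw [hu0]; exact Submodule.zero_mem _
    -- nonzero vectors of `U` with support inside `supp u`; choose one of minimal support size
    let P : ℕ → Prop := fun k => ∃ u' ∈ U, u' ≠ 0 ∧ supp u' ⊆ supp u ∧ (supp u').card = k
    have hP : ∃ k, P k := ⟨(supp u).card, u, hu, hu0, Finset.Subset.refl _, rfl⟩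
    obtain ⟨u', hu'U, hu'0, hsub, hk⟩ := Nat.find_spec hP
    have hmin : ∀ u'' ∈ U, u'' ≠ 0 → supp u'' ⊆ supp u →
        (supp u').card ≤ (supp u'').card := by
      intro u'' h1 h2 h3
      rw [hk]
      exact Nat.find_min' hP ⟨u'', h1, h2, h3, rfl⟩
    obtain ⟨i0, hi0⟩ : ∃ i, u' i ≠ 0 := by
      by_contra hcon
      exact hu'0 (funext fun i => by
        by_contra hi
        exact hcon ⟨i, hi⟩)
    -- the normalised vector is `G`-fixed by minimality
    set un : ι → L := (u' i0)⁻¹ • u' with hun
    have hunU : un ∈ U := U.smul_mem _ hu'U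
    have hun_i0 : un i0 = 1 := by simp [hun, inv_mul_cancel₀ hi0]
    have hsupp_un : supp un ⊆ supp u' := by
      intro i hi
      rw [mem_supp] at hi ⊢
      intro h0
      apply hi
      simp [hun, h0]
    have hfix : ∀ σ : L ≃ₐ[K] L, conj σ un = un := by
      intro σ
      by_contra hne
      have hd0 : conj σ un - un ≠ 0 := sub_ne_zero.mpr hne
      have hdU : conj σ un - un ∈ U := U.sub_mem (hU σ un hunU) hunU
      have hdsub : supp (conj σ un - un) ⊆ (supp u').erase i0 := by
        intro i hi
        rw [mem_supp] at hi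
        rw [Finset.mem_erase]
        refine ⟨?_, ?_⟩
        · rintro rfl
          apply hi
          simp [hun_i0]
        · rw [mem_supp]
          intro h0
          apply hi
          have : un i = 0 := by simp [hun, h0]
          simp [this]
      have hlt : (supp (conj σ un - un)).card < (supp u').card :=
        lt_of_le_of_lt (Finset.card_le_card hdsub)
          (Finset.card_erase_lt_of_mem (mem_supp.mpr hi0))
      have hge := hmin _ hdU hd0
        ((hdsub.trans (Finset.erase_subset _ _)).trans hsub)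
      omega
    obtain ⟨w, hw⟩ := exists_rat_of_fixed hfix
    have hun_span : un ∈ ratSpan (K := K) U := by
      refine Submodule.subset_span ⟨w, ?_, hw.symm⟩
      rw [SetLike.mem_coe, mem_ratPart, ← hw]
      exact hunU
    have hu'_span : u' ∈ ratSpan (K := K) U := by
      have : u' = (u' i0) • un := by
        rw [hun, smul_smul, mul_inv_cancel₀ hi0, one_smul]
      rw [this]
      exact Submodule.smul_mem _ _ hun_span
    -- kill the coordinate `i0` of `u`
    set u2 : ι → L := u - (u i0 / u' i0) • u' with hu2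
    have hu2U : u2 ∈ U := U.sub_mem hu (U.smul_mem _ hu'U)
    have hu2sub : supp u2 ⊆ (supp u).erase i0 := by
      intro i hi
      rw [mem_supp] at hi
      rw [Finset.mem_erase]
      refine ⟨?_, ?_⟩
      · rintro rfl
        apply hi
        simp [hu2, div_mul_cancel₀ _ hi0]
      · rw [mem_supp]
        intro h0
        apply hi
        have h0' : u' i = 0 := by
          by_contra hne
          exact (mem_supp.mp (hsub (mem_supp.mpr hne))) h0
        simp [hu2, h0, h0']
    have hi0u : i0 ∈ supp u := hsub (mem_supp.mpr hi0)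
    have hcard2 : (supp u2).card ≤ n := by
      have h1 := Finset.card_le_card hu2sub
      have h2 := Finset.card_erase_lt_of_mem hi0u
      omega
    have hu2_span := ih u2 hu2U hcard2
    have : u = u2 + (u i0 / u' i0) • u' := by rw [hu2]; abel
    rw [this]
    exact Submodule.add_mem _ hu2_span (Submodule.smul_mem _ _ hu'_span)

/-- **(GD2), span form**: a `G`-stable subspace is the `L`-span of its `K`-rational vectors. -/
theorem ratSpan_eq_of_stable [IsGalois K L] (U : Submodule L (ι → L))
    (hU : ∀ σ : L ≃ₐ[K] L, ∀ u ∈ U, conj σ u ∈ U) : ratSpan (K := K) U = U :=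
  le_antisymm (ratSpan_le U) fun u hu =>
    mem_ratSpan_of_stable U hU (supp u).card u hu le_rfl

/-- **(GD2), basis form**: a `G`-stable subspace has a `K`-rational basis. -/
theorem exists_rational_basis [IsGalois K L] (U : Submodule L (ι → L))
    (hU : ∀ σ : L ≃ₐ[K] L, ∀ u ∈ U, conj σ u ∈ U) :
    ∃ (r : ℕ) (b : Fin r → ι → K), LinearIndependent K b ∧
      LinearIndependent L (fun k => rat (L := L) (b k)) ∧
      (∀ k, rat (b k) ∈ U) ∧
      U = Submodule.span L (Set.range fun k => rat (L := L) (b k)) ∧
      Module.finrank L U = r := by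
  classical
  let UK : Submodule K (ι → K) := ratPart (K := K) U
  let r := Module.finrank K UK
  let B : Basis (Fin r) K UK := Module.finBasis K UK
  let b : Fin r → ι → K := fun k => (B k : ι → K)
  have hbK : LinearIndependent K b := by
    have := B.linearIndependent
    exact this.map' UK.subtype (Submodule.ker_subtype UK)
  have hbL : LinearIndependent L (fun k => rat (L := L) (b k)) := by
    have := (linearIndependent_algebraMap_comp_iff (R := K) (S := L) (v := b)).mpr hbK
    exact this
  have hbU : ∀ k, rat (b k) ∈ U := fun k => (B k).2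
  have hspan : U = Submodule.span L (Set.range fun k => rat (L := L) (b k)) := by
    apply le_antisymm
    · rw [← ratSpan_eq_of_stable U hU]
      refine Submodule.span_le.mpr ?_
      rintro _ ⟨w, hw, rfl⟩
      -- `w ∈ UK` is a `K`-combination of the `b k`
      have hrepr : (⟨w, hw⟩ : UK) = ∑ k, B.repr ⟨w, hw⟩ k • B k := (B.sum_repr ⟨w, hw⟩).symm
      have hw' : w = ∑ k, B.repr ⟨w, hw⟩ k • b k := by
        have h1 := congrArg UK.subtype hrepr
        rw [map_sum] at h1
        simp only [map_smul, Submodule.subtype_apply] at h1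
        exact h1
      have : rat (L := L) w = ∑ k, algebraMap K L (B.repr ⟨w, hw⟩ k) • rat (L := L) (b k) := by
        conv_lhs => rw [hw']
        ext i
        simp [Finset.sum_apply, Algebra.smul_def]
      rw [SetLike.mem_coe, this]
      exact Submodule.sum_mem _ fun k _ =>
        Submodule.smul_mem _ _ (Submodule.subset_span ⟨k, rfl⟩)
    · refine Submodule.span_le.mpr ?_
      rintro _ ⟨k, rfl⟩
      exact hbU k
  refine ⟨r, b, hbK, hbL, hbU, hspan, ?_⟩
  rw [hspan, finrank_span_eq_card hbL, Fintype.card_fin]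

/-- a nonzero `G`-stable subspace contains a nonzero `K`-rational vector -/
theorem exists_rat_mem_ne_zero [IsGalois K L] (U : Submodule L (ι → L))
    (hU : ∀ σ : L ≃ₐ[K] L, ∀ u ∈ U, conj σ u ∈ U) (hne : U ≠ ⊥) :
    ∃ w : ι → K, w ≠ 0 ∧ rat (L := L) w ∈ U := by
  obtain ⟨r, b, hbK, -, hbU, hspan, -⟩ := exists_rational_basis U hU
  rcases Nat.eq_zero_or_pos r with h0 | hpos
  · subst h0
    exfalso
    apply hne
    rw [hspan]
    have : (Set.range fun k : Fin 0 => rat (L := L) (b k)) = ∅ := Set.range_eq_empty _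
    rw [this, Submodule.span_empty]
  · exact ⟨b ⟨0, hpos⟩, hbK.ne_zero _, hbU _⟩

/-- a `G`-stable subspace all of whose nonzero vectors are proportional (a line, or `⊥`) is
generated by one `K`-rational vector; used for `{a : Z(a) ≥ D + W}` in H0.14 -/
theorem exists_rat_generator_of_line [IsGalois K L] (U : Submodule L (ι → L))
    (hU : ∀ σ : L ≃ₐ[K] L, ∀ u ∈ U, conj σ u ∈ U) (hne : U ≠ ⊥)
    (hline : ∀ u ∈ U, ∀ u' ∈ U, u' ≠ 0 → ∃ c : L, u = c • u') :
    ∃ w : ι → K, w ≠ 0 ∧ rat (L := L) w ∈ U ∧ ∀ u ∈ U, ∃ c : L, u = c • rat (L := L) w := by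
  obtain ⟨w, hw0, hwU⟩ := exists_rat_mem_ne_zero U hU hne
  refine ⟨w, hw0, hwU, fun u hu => hline u hu _ hwU ?_⟩
  intro h
  apply hw0
  apply rat_injective (K := K) (L := L)
  rw [h]
  ext i
  simp

end Subspace

section Kernel

variable [Fintype ι] {κ : Type*}

omit [Fintype ι] in
/-- **(GD3)** if the rows of `M` are permuted by the Galois action, `ker M` is `G`-stable. -/
theorem ker_stable (M : κ → ι → L)
    (hM : ∀ σ : L ≃ₐ[K] L, ∃ π : κ ≃ κ, ∀ k i, σ (M k i) = M (π k) i)
    (ev : (ι → L) → (ι → L) → L)
    (hev : ∀ (σ : L ≃ₐ[K] L) (m u : ι → L), σ (ev m u) = ev (conj σ m) (conj σ u))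
    (σ : L ≃ₐ[K] L) (u : ι → L) (hu : ∀ k, ev (M k) u = 0) : ∀ k, ev (M k) (conj σ u) = 0 := by
  intro k
  obtain ⟨π, hπ⟩ := hM σ
  have hrow : conj σ (M (π.symm k)) = M k := by
    ext i
    rw [conj_apply, hπ (π.symm k) i, Equiv.apply_symm_apply]
  have := hev σ (M (π.symm k)) u
  rw [hu (π.symm k), map_zero, hrow] at this
  exact this.symm

/-- the dot-product kernel of a family of rows, as a submodule -/
def rowKer (M : κ → ι → L) : Submodule L (ι → L) where
  carrier := {u | ∀ k, ∑ i, M k i * u i = 0}
  zero_mem' := by intro k; simp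
  add_mem' := by
    intro u v hu hv k
    have : ∑ i, M k i * (u + v) i = ∑ i, M k i * u i + ∑ i, M k i * v i := by
      rw [← Finset.sum_add_distrib]
      refine Finset.sum_congr rfl fun i _ => ?_
      simp [mul_add]
    rw [this, hu k, hv k, add_zero]
  smul_mem' := by
    intro c u hu k
    have : ∑ i, M k i * (c • u) i = c * ∑ i, M k i * u i := by
      rw [Finset.mul_sum]
      refine Finset.sum_congr rfl fun i _ => ?_
      simp only [Pi.smul_apply, smul_eq_mul]
      ring
    rw [this, hu k, mul_zero]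

theorem mem_rowKer {M : κ → ι → L} {u : ι → L} :
    u ∈ rowKer M ↔ ∀ k, ∑ i, M k i * u i = 0 := Iff.rfl

/-- **(GD3)** the kernel of a matrix whose set of rows is `G`-stable up to a permutation is
`G`-stable -/
theorem rowKer_stable (M : κ → ι → L)
    (hM : ∀ σ : L ≃ₐ[K] L, ∃ π : κ ≃ κ, ∀ k i, σ (M k i) = M (π k) i)
    (σ : L ≃ₐ[K] L) (u : ι → L) (hu : u ∈ rowKer M) : conj σ u ∈ rowKer M := by
  rw [mem_rowKer] at hu ⊢
  refine ker_stable (K := K) M hM (fun m u => ∑ i, m i * u i) ?_ σ u hu
  intro τ m u
  simp [map_sum]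

/-- **(GD3)** ... hence it has a `K`-rational basis. -/
theorem exists_rational_basis_rowKer [IsGalois K L] (M : κ → ι → L)
    (hM : ∀ σ : L ≃ₐ[K] L, ∃ π : κ ≃ κ, ∀ k i, σ (M k i) = M (π k) i) :
    ∃ (r : ℕ) (b : Fin r → ι → K), LinearIndependent K b ∧
      LinearIndependent L (fun k => rat (L := L) (b k)) ∧
      (∀ k, rat (b k) ∈ rowKer M) ∧
      rowKer M = Submodule.span L (Set.range fun k => rat (L := L) (b k)) ∧
      Module.finrank L (rowKer M) = r :=
  exists_rational_basis (rowKer M) (rowKer_stable M hM)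

end Kernel

/-! ### The instance `K = ℚ`, `L = AlgebraicClosure ℚ` -/

section Qbar

local notation "Qb" => AlgebraicClosure ℚ

theorem isGalois_Qbar : IsGalois ℚ Qb :=
  haveI : Algebra.IsAlgebraic ℚ Qb := AlgebraicClosure.isAlgebraic ℚ
  haveI : IsAlgClosure ℚ Qb := ⟨inferInstance, inferInstance⟩
  { to_isSeparable := inferInstance
    to_normal := IsAlgClosure.normal ℚ Qb }

/-- `Qb^G = ℚ` -/
theorem fixed_iff_rat (a : Qb) :
    (∀ σ : Qb ≃ₐ[ℚ] Qb, σ a = a) ↔ ∃ q : ℚ, algebraMap ℚ Qb q = a :=
  haveI := isGalois_Qbar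
  fixed_iff_mem_range (K := ℚ) a

end Qbar

end Fermat.Agent.S17.Abs.GaloisDescent
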